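import Mathlib
import Fermat.Prelude.Def_ModularCurve_PeriodHomPair

set_option autoImplicit false

/-!
# S21 (Plan ES): the reflection `z ↦ -conj z` and reflected primitives

* `J_smul_smul`: `j ∘ γ = jConjSL γ ∘ j` on `ℍ`, where `j z = -conj z = J • z`;
* `reflect F z = conj (F (J • z))`: holomorphic if `F` is, with derivative `-conj (f (J • z))`;
* `conj_T_zpow_mem_Gamma0`, `trace_conj_T_zpow`: `δ T^(N k) δ⁻¹ ∈ Γ₀(N)` is parabolic;
* constants have zero derivative.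
-/

namespace Fermat.Agent.S21

open UpperHalfPlane Function Complex Filter CongruenceSubgroup ModularCurve.Period
open scoped MatrixGroups Manifold Topology ComplexConjugate

noncomputable section

/-! ### The reflection `J` -/

theorem coe_J_smul' (z : ℍ) : ((J • z : ℍ) : ℂ) = -conj (z : ℂ) := coe_J_smul z

theorem im_J_smul (z : ℍ) : (J • z).im = z.im := by
  have h : ((J • z : ℍ) : ℂ).im = (z : ℂ).im := by
    rw [coe_J_smul']
    simp
  exact h

theorem J_smul_J_smul (z : ℍ) : J • J • z = z := by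
  ext1
  rw [coe_J_smul', coe_J_smul']
  simp

theorem J_smul_vadd (x : ℝ) (z : ℍ) : J • (x +ᵥ z) = (-x) +ᵥ (J • z) := by
  ext1
  rw [coe_J_smul', coe_vadd, coe_vadd, coe_J_smul']
  simp
  ring

theorem tendsto_J_smul_atImInfty : Tendsto (fun z : ℍ => J • z) atImInfty atImInfty := by
  rw [atImInfty, tendsto_comap_iff]
  have : (UpperHalfPlane.im ∘ fun z : ℍ => J • z) = UpperHalfPlane.im := by
    funext z
    exact im_J_smul z
  rw [this]
  exact tendsto_comap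

/-- `j ∘ γ = jConjSL γ ∘ j`. -/
theorem J_smul_smul (γ : SL(2, ℤ)) (z : ℍ) : J • (γ • z) = jConjSL γ • (J • z) := by
  have hmat : J * (γ : GL (Fin 2) ℝ) = ((jConjSL γ : SL(2, ℤ)) : GL (Fin 2) ℝ) * J := by
    apply Matrix.GeneralLinearGroup.ext
    intro i j
    rw [Matrix.GeneralLinearGroup.coe_mul, Matrix.GeneralLinearGroup.coe_mul,
      Matrix.mul_apply, Matrix.mul_apply, Fin.sum_univ_two, Fin.sum_univ_two]
    fin_cases i <;> fin_cases j <;> simp [val_J, jConjMat]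
  calc J • (γ • z) = J • ((γ : GL (Fin 2) ℝ) • z) := rfl
    _ = (J * (γ : GL (Fin 2) ℝ)) • z := (mul_smul _ _ _).symm
    _ = (((jConjSL γ : SL(2, ℤ)) : GL (Fin 2) ℝ) * J) • z := by rw [hmat]
    _ = ((jConjSL γ : SL(2, ℤ)) : GL (Fin 2) ℝ) • (J • z) := mul_smul _ _ _
    _ = jConjSL γ • (J • z) := rfl

/-! ### Reflected functions -/

/-- the reflected function `z ↦ conj (F (-conj z))`. -/
def reflect (F : ℍ → ℂ) : ℍ → ℂ := fun z => conj (F (J • z))

theorem reflect_apply (F : ℍ → ℂ) (z : ℍ) : reflect F z = conj (F (J • z)) := rfl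

theorem conj_reflect (F : ℍ → ℂ) (z : ℍ) : conj (reflect F z) = F (J • z) := by
  simp [reflect]

theorem reflect_smul (F : ℍ → ℂ) (γ : SL(2, ℤ)) (z : ℍ) :
    reflect F (γ • z) = conj (F (jConjSL γ • (J • z))) := by
  rw [reflect, J_smul_smul]

/-- derivative of the reflected function. -/
theorem hasDerivAt_reflect {F : ℍ → ℂ} {f : ℍ → ℂ}
    (hF : ∀ τ : ℍ, HasDerivAt (F ∘ ofComplex) (f τ) ↑τ) (τ : ℍ) :
    HasDerivAt (reflect F ∘ ofComplex) (-conj (f (J • τ))) ↑τ := by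
  -- `G = F ∘ ofComplex`; near `τ`, `reflect F ∘ ofComplex = (conj ∘ G ∘ conj) ∘ neg`
  set G : ℂ → ℂ := F ∘ ofComplex with hG
  have h1 : HasDerivAt (conj ∘ G ∘ conj) (conj (f (J • τ))) (conj ((J • τ : ℍ) : ℂ)) :=
    (hF (J • τ)).conj_conj
  have h2 : conj ((J • τ : ℍ) : ℂ) = -(τ : ℂ) := by
    rw [coe_J_smul']
    simp
  rw [h2] at h1
  have h3 : HasDerivAt ((conj ∘ G ∘ conj) ∘ Neg.neg) (conj (f (J • τ)) * (-1)) (τ : ℂ) :=
    HasDerivAt.comp (τ : ℂ) h1 (hasDerivAt_neg (τ : ℂ))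
  rw [mul_neg_one] at h3
  refine h3.congr_of_eventuallyEq ?_
  have hopen : {w : ℂ | 0 < w.im} ∈ 𝓝 (τ : ℂ) :=
    (isOpen_lt continuous_const Complex.continuous_im).mem_nhds τ.im_pos
  filter_upwards [hopen] with w hw
  have hw' : 0 < (-conj w).im := by simpa using hw
  simp only [comp_apply, reflect, hG, ofComplex_apply_of_im_pos hw]
  congr 2
  rw [show conj (-w) = -conj w by simp, ofComplex_apply_of_im_pos hw']
  ext1
  rw [coe_J_smul']

theorem mdiff_reflect {F : ℍ → ℂ} {f : ℍ → ℂ}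
    (hF : ∀ τ : ℍ, HasDerivAt (F ∘ ofComplex) (f τ) ↑τ) : MDiff (reflect F) := by
  rw [UpperHalfPlane.mdifferentiable_iff]
  intro w hw
  have := hasDerivAt_reflect hF ⟨w, hw⟩
  exact this.differentiableAt.differentiableWithinAt

theorem mdiff_of_hasDerivAt {F : ℍ → ℂ} {f : ℍ → ℂ}
    (hF : ∀ τ : ℍ, HasDerivAt (F ∘ ofComplex) (f τ) ↑τ) : MDiff F := by
  rw [UpperHalfPlane.mdifferentiable_iff]
  intro w hw
  exact (hF ⟨w, hw⟩).differentiableAt.differentiableWithinAt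

/-- a constant primitive has zero derivative. -/
theorem eq_zero_of_const_primitive {F : ℍ → ℂ} {f : ℍ → ℂ}
    (hF : ∀ τ : ℍ, HasDerivAt (F ∘ ofComplex) (f τ) ↑τ) {c : ℂ} (hc : ∀ z, F z = c) :
    ∀ τ, f τ = 0 := by
  intro τ
  have h1 := hF τ
  have h2 : HasDerivAt (F ∘ ofComplex) 0 (τ : ℂ) := by
    have : (F ∘ ofComplex) = fun _ => c := by
      funext w
      exact hc _
    rw [this]
    exact hasDerivAt_const _ _
  exact h1.unique h2

/-- if the reflected primitive is constant then the derivative vanishes. -/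
theorem eq_zero_of_const_reflect {F : ℍ → ℂ} {f : ℍ → ℂ}
    (hF : ∀ τ : ℍ, HasDerivAt (F ∘ ofComplex) (f τ) ↑τ) {c : ℂ} (hc : ∀ z, reflect F z = c) :
    ∀ τ, f τ = 0 := by
  intro τ
  have h := eq_zero_of_const_primitive (hasDerivAt_reflect hF) hc (J • τ)
  rw [J_smul_J_smul] at h
  simpa using h

theorem isBoundedAtImInfty_comp_J {G : ℍ → ℂ} (hG : IsBoundedAtImInfty G) :
    IsBoundedAtImInfty (fun z : ℍ => G (J • z)) := by
  rw [isBoundedAtImInfty_iff] at hG ⊢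
  obtain ⟨M, A, h⟩ := hG
  exact ⟨M, A, fun z hz => h (J • z) (by rw [im_J_smul]; exact hz)⟩

theorem isBoundedAtImInfty_conj {G : ℍ → ℂ} (hG : IsBoundedAtImInfty G) :
    IsBoundedAtImInfty (fun z : ℍ => conj (G z)) := by
  rw [isBoundedAtImInfty_iff] at hG ⊢
  obtain ⟨M, A, h⟩ := hG
  exact ⟨M, A, fun z hz => by simpa using h z hz⟩

/-! ### Conjugates of `T ^ (N k)` -/

theorem conj_T_zpow_mem_Gamma0 (N : ℕ) (δ : SL(2, ℤ)) (k : ℤ) :
    δ * ModularGroup.T ^ ((N : ℤ) * k) * δ⁻¹ ∈ Gamma0 N := by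
  have h1 : ModularGroup.T ^ ((N : ℤ) * k) ∈ CongruenceSubgroup.Gamma N := by
    have := ModularGroup_T_pow_mem_Gamma (N : ℤ) ((N : ℤ) * k) (dvd_mul_right _ _)
    simpa using this
  have h2 : δ * ModularGroup.T ^ ((N : ℤ) * k) * δ⁻¹ ∈ CongruenceSubgroup.Gamma N :=
    (Gamma_normal N).conj_mem _ h1 δ
  rw [Gamma_mem] at h2
  rw [Gamma0_mem]
  exact h2.2.2.1

theorem trace_conj_T_zpow (δ : SL(2, ℤ)) (m : ℤ) :
    ((δ * ModularGroup.T ^ m * δ⁻¹ : SL(2, ℤ)) : Matrix (Fin 2) (Fin 2) ℤ).trace = 2 := by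
  rw [Matrix.SpecialLinearGroup.coe_mul, Matrix.SpecialLinearGroup.coe_mul, Matrix.trace_mul_comm,
    ← Matrix.mul_assoc, ← Matrix.SpecialLinearGroup.coe_mul, inv_mul_cancel,
    Matrix.SpecialLinearGroup.coe_one, Matrix.one_mul, ModularGroup.coe_T_zpow,
    Matrix.trace_fin_two_of]
  norm_num

/-- `δ • (N k + z) = (δ T^(N k) δ⁻¹) • (δ • z)`. -/
theorem smul_vadd_eq_conj_smul (N : ℕ) (δ : SL(2, ℤ)) (k : ℤ) (z : ℍ) :
    δ • ((((N : ℤ) * k : ℤ) : ℝ) +ᵥ z) =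
      (δ * ModularGroup.T ^ ((N : ℤ) * k) * δ⁻¹) • (δ • z) := by
  rw [← modular_T_zpow_smul, ← mul_smul, ← mul_smul]
  congr 1
  group

end

end Fermat.Agent.S21
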