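import Mathlib
import Fermat.Prelude.Def_ModularCurve_PeriodHomPair
import Fermat.Prelude.Thm_Subgroup_IsArithmetic_exists_nat_mem_strictPeriods_conj
import Fermat.Agent.S22.Eich

set_option autoImplicit false

/-!
# S21, analytic half (E): the equivariant primitive of a weight two cusp form

For `f : CuspForm (Gamma0 N) 2` the function `primF f = (2πi)⁻¹ • eich 1 f` is a holomorphic
primitive of `f` vanishing at `i∞`; it is an equivariant primitive in the sense of the prelude, so
the period map is computed by it and is linear in `f`.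
-/

namespace Fermat.Agent.S21

open UpperHalfPlane ModularForm CongruenceSubgroup Filter Topology
open scoped Manifold MatrixGroups ModularForm Derivative Real Pointwise

noncomputable section

/-- weight zero slash is composition. -/
theorem slash_zero_apply (G : ℍ → ℂ) (γ : SL(2, ℤ)) (z : ℍ) : (G ∣[(0 : ℤ)] γ) z = G (γ • z) := by
  simp [ModularForm.SL_slash_apply]

theorem D_slash_zero {G : ℍ → ℂ} (hG : MDiff G) (γ : SL(2, ℤ)) :
    D (G ∣[(0 : ℤ)] γ) = (D G) ∣[(2 : ℤ)] γ := by
  have h := Derivative.normalizedDerivOfComplex_SL_slash (k := 0) hG (γ := γ)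
  rw [h]
  ext z
  simp

theorem mdiff_slash_zero {G : ℍ → ℂ} (hG : MDiff G) (γ : SL(2, ℤ)) : MDiff (G ∣[(0 : ℤ)] γ) := by
  rw [SL_slash]
  exact hG.slash _ _

/-- A holomorphic function with vanishing `D` is constant. -/
theorem exists_const_of_D_eq_zero {R : ℍ → ℂ} (hR : MDiff R) (h : D R = 0) :
    ∃ c : ℂ, ∀ τ : ℍ, R τ = c :=
  S22.polyKernel_eq_const_of_D_eq_zero hR h

theorem D_sub' {F G : ℍ → ℂ} (hF : MDiff F) (hG : MDiff G) : D (F - G) = D F - D G := by
  have := S22.iterate_D_sub 1 hF hG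
  simpa using this

/-- The translate of the Eichler integral of a weight two cusp form by `δ ∈ SL(2,ℤ)` is, up to a
constant, a function vanishing at `i∞`. -/
theorem exists_translate_primitive {N : ℕ} [NeZero N] (f : CuspForm (Gamma0 N) 2) {G : ℍ → ℂ}
    (hG : MDiff G) (hDG : D G = f) (δ : SL(2, ℤ)) :
    ∃ (Gδ : ℍ → ℂ) (c : ℂ), IsZeroAtImInfty Gδ ∧ ∀ z : ℍ, G (δ • z) = Gδ z + c := by
  obtain ⟨M, hM0, hM⟩ := Subgroup.IsArithmetic.exists_nat_mem_strictPeriods_conj
    ((Gamma0 N : Subgroup SL(2, ℤ)) : Subgroup (GL (Fin 2) ℝ))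
  have hMR : (0 : ℝ) < M := by exact_mod_cast hM0
  set g : CuspForm (ConjAct.toConjAct (Matrix.SpecialLinearGroup.mapGL ℝ δ)⁻¹ •
      ((Gamma0 N : Subgroup SL(2, ℤ)) : Subgroup (GL (Fin 2) ℝ))) 2 :=
    CuspForm.translate f (Matrix.SpecialLinearGroup.mapGL ℝ δ) with hg
  have hper : (M : ℝ) ∈ (ConjAct.toConjAct (Matrix.SpecialLinearGroup.mapGL ℝ δ)⁻¹ •
      ((Gamma0 N : Subgroup SL(2, ℤ)) : Subgroup (GL (Fin 2) ℝ))).strictPeriods := by
    have := hM δ⁻¹
    simpa using this
  have hgper : Function.Periodic ((g : ℍ → ℂ) ∘ ofComplex) (M : ℝ) :=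
    SlashInvariantFormClass.periodic_comp_ofComplex g hper
  have hcusp : IsCusp OnePoint.infty (ConjAct.toConjAct (Matrix.SpecialLinearGroup.mapGL ℝ δ)⁻¹ •
      ((Gamma0 N : Subgroup SL(2, ℤ)) : Subgroup (GL (Fin 2) ℝ))) :=
    Subgroup.isCusp_of_mem_strictPeriods hMR hper
  have hgzero : IsZeroAtImInfty (g : ℍ → ℂ) :=
    OnePoint.isZeroAt_infty_iff.mp (CuspFormClass.zero_at_cusps g hcusp)
  have hghol : MDiff (g : ℍ → ℂ) := CuspFormClass.holo g
  obtain ⟨Gδ, -, hGδhol, hGδzero, hDGδ⟩ := S22.exists_eichler_integral 1 hMR hgper hghol hgzero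
  have hDGδ' : D Gδ = g := by simpa using hDGδ
  have hgcoe : (g : ℍ → ℂ) = (f : ℍ → ℂ) ∣[(2 : ℤ)] δ := by
    rw [SL_slash]; rfl
  have hR : MDiff (G ∣[(0 : ℤ)] δ - Gδ) := (mdiff_slash_zero hG δ).sub hGδhol
  have hDR : D (G ∣[(0 : ℤ)] δ - Gδ) = 0 := by
    rw [D_sub' (mdiff_slash_zero hG δ) hGδhol, D_slash_zero hG, hDG, hDGδ', hgcoe, sub_self]
  obtain ⟨c, hc⟩ := exists_const_of_D_eq_zero hR hDR
  refine ⟨Gδ, c, hGδzero, fun z => ?_⟩
  have := hc z
  rw [Pi.sub_apply, slash_zero_apply] at this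
  rw [← this]; ring

/-- The primitive of `f` vanishing at `i∞`. -/
def primF (f : ℍ → ℂ) : ℍ → ℂ := (2 * π * Complex.I)⁻¹ • S22.eich 1 f

section

variable {N : ℕ} [NeZero N]

theorem isEich_eich_two (f : CuspForm (Gamma0 N) 2) : S22.IsEich 1 f (S22.eich 1 f) :=
  S22.isEich_eich_cuspForm 1 f

theorem mdiff_eich (f : CuspForm (Gamma0 N) 2) : MDiff (S22.eich 1 f) := (isEich_eich_two f).1

theorem D_eich (f : CuspForm (Gamma0 N) 2) : D (S22.eich 1 f) = f := by
  simpa using (isEich_eich_two f).2.2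

theorem mdiff_primF (f : CuspForm (Gamma0 N) 2) : MDiff (primF f) :=
  (mdiff_eich f).const_smul _

theorem primF_apply (f : CuspForm (Gamma0 N) 2) (z : ℍ) :
    primF f z = (2 * π * Complex.I)⁻¹ * S22.eich 1 f z := rfl

theorem tendsto_primF (f : CuspForm (Gamma0 N) 2) : Tendsto (primF f) atImInfty (𝓝 0) := by
  have h : IsZeroAtImInfty (S22.eich 1 f) := (isEich_eich_two f).2.1
  have h2 := h.const_mul (2 * π * Complex.I)⁻¹
  rw [mul_zero] at h2
  exact h2

theorem hasDerivAt_primF (f : CuspForm (Gamma0 N) 2) (τ : ℍ) :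
    HasDerivAt (primF f ∘ ofComplex) (f τ) ↑τ := by
  have hd : DifferentiableAt ℂ (S22.eich 1 f ∘ ofComplex) ↑τ :=
    UpperHalfPlane.mdifferentiableAt_iff.mp (mdiff_eich f τ)
  have hD : (2 * π * Complex.I)⁻¹ * deriv (S22.eich 1 f ∘ ofComplex) ↑τ = f τ := by
    have := congrFun (D_eich f) τ
    simpa [Derivative.normalizedDerivOfComplex] using this
  have h1 := hd.hasDerivAt.const_smul (2 * π * Complex.I)⁻¹
  rw [smul_eq_mul, hD] at h1
  exact h1

theorem primF_add (f g : CuspForm (Gamma0 N) 2) : primF ⇑(f + g) = primF f + primF g := by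
  have h := ((isEich_eich_two f).add (isEich_eich_two g)).eich_eq
  have hc : ⇑(f + g) = ⇑f + ⇑g := rfl
  rw [primF, primF, primF, hc, h, smul_add]

theorem primF_smul (c : ℂ) (f : CuspForm (Gamma0 N) 2) : primF ⇑(c • f) = c • primF f := by
  have h := ((isEich_eich_two f).smul c).eich_eq
  have hc : ⇑(c • f) = c • ⇑f := rfl
  rw [primF, primF, hc, h, smul_comm]

/-- Translates of the primitive have limits at `i∞`. -/
theorem exists_primF_translate (f : CuspForm (Gamma0 N) 2) (δ : SL(2, ℤ)) :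
    ∃ (Gδ : ℍ → ℂ) (c : ℂ), IsZeroAtImInfty Gδ ∧ ∀ z : ℍ, primF f (δ • z) = Gδ z + c := by
  obtain ⟨Gδ, c, h0, h1⟩ := exists_translate_primitive f (mdiff_eich f) (D_eich f) δ
  refine ⟨(2 * π * Complex.I)⁻¹ • Gδ, (2 * π * Complex.I)⁻¹ * c, ?_, fun z => ?_⟩
  · have h2 := h0.const_mul (2 * π * Complex.I)⁻¹
    rw [mul_zero] at h2
    exact h2
  · rw [primF_apply, h1 z, Pi.smul_apply, smul_eq_mul, mul_add]

/-- The primitive is equivariant under `Γ₀(N)`. -/
theorem isEquivariantPrimitive_primF (f : CuspForm (Gamma0 N) 2) :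
    ModularCurve.Period.IsEquivariantPrimitive (Gamma0 N) (primF f) := by
  intro γ
  have hG := mdiff_eich f
  have hinv : (⇑f : ℍ → ℂ) ∣[(2 : ℤ)] (γ : SL(2, ℤ)) = ⇑f := by
    rw [SL_slash]
    exact SlashInvariantFormClass.slash_action_eq f _ (Subgroup.mem_map_of_mem _ γ.2)
  have hR : MDiff (S22.eich 1 f ∣[(0 : ℤ)] (γ : SL(2, ℤ)) - S22.eich 1 f) :=
    (mdiff_slash_zero hG _).sub hG
  have hDR : D (S22.eich 1 f ∣[(0 : ℤ)] (γ : SL(2, ℤ)) - S22.eich 1 f) = 0 := by
    rw [D_sub' (mdiff_slash_zero hG _) hG, D_slash_zero hG, D_eich f, hinv, sub_self]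
  obtain ⟨c, hc⟩ := exists_const_of_D_eq_zero hR hDR
  refine ⟨(2 * π * Complex.I)⁻¹ * c, fun z => ?_⟩
  have := hc z
  rw [Pi.sub_apply, slash_zero_apply] at this
  rw [primF_apply, primF_apply, ← this]
  ring

/-- **(E1)** -/
theorem hasEquivariantPrimitive_primF (f : CuspForm (Gamma0 N) 2) :
    ModularCurve.HasEquivariantPrimitive N f (primF f) := by
  refine ⟨hasDerivAt_primF f, tendsto_primF f, isEquivariantPrimitive_primF f, fun δ => ?_⟩
  obtain ⟨Gδ, c, h0, h1⟩ := exists_primF_translate f δ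
  refine ⟨c, ?_⟩
  have h2 : Tendsto (fun w : ℍ => Gδ w + c) atImInfty (𝓝 (0 + c)) := h0.add_const c
  rw [zero_add] at h2
  exact h2.congr fun w => (h1 w).symm

/-- Two equivariant primitives of the same form have the same periods. -/
theorem period_eq_of_hasEquivariantPrimitive (f : CuspForm (Gamma0 N) 2) {F₁ F₂ : ℍ → ℂ}
    (h₁ : ModularCurve.HasEquivariantPrimitive N f F₁)
    (h₂ : ModularCurve.HasEquivariantPrimitive N f F₂) (γ : Gamma0 N) :
    h₁.2.2.1.period γ = h₂.2.2.1.period γ := by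
  -- `F₁ - F₂` is constant
  have hconst : ∀ τ : ℍ, F₁ τ - F₂ τ = F₁ UpperHalfPlane.I - F₂ UpperHalfPlane.I := by
    intro τ
    have hd : DifferentiableOn ℂ ((F₁ ∘ ofComplex) - (F₂ ∘ ofComplex)) {z : ℂ | 0 < z.im} := by
      intro z hz
      have e : ((⟨z, hz⟩ : ℍ) : ℂ) = z := rfl
      have a1 := h₁.1 ⟨z, hz⟩
      have a2 := h₂.1 ⟨z, hz⟩
      rw [e] at a1 a2
      exact (a1.differentiableAt.sub a2.differentiableAt).differentiableWithinAt
    have hderiv : Set.EqOn (deriv ((F₁ ∘ ofComplex) - (F₂ ∘ ofComplex))) 0 {z : ℂ | 0 < z.im} := by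
      intro z hz
      have e : ((⟨z, hz⟩ : ℍ) : ℂ) = z := rfl
      have a1 := h₁.1 ⟨z, hz⟩
      have a2 := h₂.1 ⟨z, hz⟩
      rw [e] at a1 a2
      have := (a1.sub a2).deriv
      rw [sub_self] at this
      exact this
    have hconv : IsPreconnected {z : ℂ | 0 < z.im} := (convex_halfSpace_im_gt 0).isPreconnected
    have := isOpen_upperHalfPlaneSet.is_const_of_deriv_eq_zero hconv hd hderiv
      (x := (τ : ℂ)) (y := (UpperHalfPlane.I : ℂ)) τ.im_pos UpperHalfPlane.I.im_pos
    rw [Pi.sub_apply, Pi.sub_apply, Function.comp_apply, Function.comp_apply, Function.comp_apply,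
      Function.comp_apply, ofComplex_apply, ofComplex_apply] at this
    exact this
  rw [ModularCurve.Period.IsEquivariantPrimitive.period,
    ModularCurve.Period.IsEquivariantPrimitive.period]
  have := hconst ((γ : SL(2, ℤ)) • UpperHalfPlane.I)
  linear_combination this

/-- **(E2)** the period map is computed by `primF`. -/
theorem periodMap_apply (f : CuspForm (Gamma0 N) 2) (γ : Gamma0 N) (z : ℍ) :
    ModularCurve.periodMap N f (Additive.ofMul γ) =
      primF f ((γ : SL(2, ℤ)) • z) - primF f z := by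
  obtain ⟨F₀, h₀, hper⟩ := ModularCurve.periodMap_def N f (hasEquivariantPrimitive_primF f)
  rw [hper, ModularCurve.Period.IsEquivariantPrimitive.periodHom_apply,
    period_eq_of_hasEquivariantPrimitive f h₀ (hasEquivariantPrimitive_primF f) γ,
    ← (hasEquivariantPrimitive_primF f).2.2.1.sub_eq_period γ z]

/-- The period map as a linear map. -/
def periodMapLin (N : ℕ) [NeZero N] :
    CuspForm (Gamma0 N) 2 →ₗ[ℂ] (Additive (Gamma0 N) →+ ℂ) where
  toFun f := ModularCurve.periodMap N f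
  map_add' f g := by
    refine AddMonoidHom.ext fun γ₀ => ?_
    have key : ∀ γ : Gamma0 N, ModularCurve.periodMap N (f + g) (Additive.ofMul γ) =
        ModularCurve.periodMap N f (Additive.ofMul γ) +
          ModularCurve.periodMap N g (Additive.ofMul γ) := by
      intro γ
      rw [periodMap_apply _ γ UpperHalfPlane.I,
        periodMap_apply _ γ UpperHalfPlane.I, periodMap_apply _ γ UpperHalfPlane.I, primF_add]
      simp only [Pi.add_apply]
      ring
    exact key (Additive.toMul γ₀)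
  map_smul' c f := by
    refine AddMonoidHom.ext fun γ₀ => ?_
    have key : ∀ γ : Gamma0 N, ModularCurve.periodMap N (c • f) (Additive.ofMul γ) =
        c • ModularCurve.periodMap N f (Additive.ofMul γ) := by
      intro γ
      rw [periodMap_apply _ γ UpperHalfPlane.I,
        periodMap_apply _ γ UpperHalfPlane.I, primF_smul]
      simp only [Pi.smul_apply, smul_eq_mul]
      ring
    exact key (Additive.toMul γ₀)

@[simp] theorem periodMapLin_apply (f : CuspForm (Gamma0 N) 2) :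
    periodMapLin N f = ModularCurve.periodMap N f := rfl

/-- **(E3)** -/
theorem existsPeriodMapLinear (N : ℕ) [NeZero N] : ModularCurve.ExistsPeriodMapLinear N :=
  ⟨periodMapLin N, fun _ => rfl⟩

/-- **(E4)** explicit formula for the period pair. -/
theorem periodHomPair_apply (f g : CuspForm (Gamma0 N) 2) :
    ModularCurve.periodHomPair N (f, g) =
      (ModularCurve.periodMap N f + ModularCurve.Period.charInvolution N ℂ ℂ
        (ModularCurve.periodMap N f)) +
      (ModularCurve.periodMap N g - ModularCurve.Period.charInvolution N ℂ ℂ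
        (ModularCurve.periodMap N g)) := by
  obtain ⟨pml, hpml, hdef⟩ := ModularCurve.periodHomPair_def N (existsPeriodMapLinear N)
  rw [hdef]
  simp [LinearMap.coprod_apply, hpml]

end

end

end Fermat.Agent.S21
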