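/-
S21 (PLAN ES), chunk (I1): a vector valued maximum modulus principle on `Γ \ ℍ`.

If `Φ` is holomorphic on the upper half plane, `‖Φ‖` is invariant under a finite index subgroup
`H ≤ SL(2,ℤ)`, and every `SL(2,ℤ)`-translate of `Φ` is `h`-periodic and bounded at `i∞`,
then `Φ` is constant.
-/
import Mathlib

set_option autoImplicit false

namespace Fermat.Agent.S21

open UpperHalfPlane hiding I
open ModularForm Complex Filter Function Metric Set
open scoped MatrixGroups Manifold Topology Real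

noncomputable section

section General

variable (H : Subgroup SL(2, ℤ))

/-- The translate `τ ↦ Φ (g⁻¹ τ)` of `Φ` along the coset `q = gH`. -/
def cosetTranslate (Φ : ℍ → ℂ) (q : SL(2, ℤ) ⧸ H) : ℍ → ℂ :=
  fun τ => Φ ((Quotient.out q)⁻¹ • τ)

variable {H}

lemma norm_cosetTranslate_mk {Φ : ℍ → ℂ} (hinv : ∀ a ∈ H, ∀ τ, ‖Φ (a • τ)‖ = ‖Φ τ‖)
    (g : SL(2, ℤ)) (τ : ℍ) :
    ‖cosetTranslate H Φ (g : SL(2, ℤ) ⧸ H) τ‖ = ‖Φ (g⁻¹ • τ)‖ := by
  unfold cosetTranslate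
  set g' : SL(2, ℤ) := Quotient.out (g : SL(2, ℤ) ⧸ H) with hg'
  have h1 : ((g' : SL(2, ℤ)) : SL(2, ℤ) ⧸ H) = (g : SL(2, ℤ) ⧸ H) := QuotientGroup.out_eq' _
  have h2 : g'⁻¹ * g ∈ H := QuotientGroup.eq.mp h1
  have h3 : g⁻¹ = (g'⁻¹ * g)⁻¹ * g'⁻¹ := by group
  rw [h3, mul_smul, hinv _ (H.inv_mem h2)]

lemma norm_cosetTranslate_smul {Φ : ℍ → ℂ} (hinv : ∀ a ∈ H, ∀ τ, ‖Φ (a • τ)‖ = ‖Φ τ‖)
    (σ : SL(2, ℤ)) (q : SL(2, ℤ) ⧸ H) (τ : ℍ) :
    ‖cosetTranslate H Φ q (σ • τ)‖ = ‖cosetTranslate H Φ (σ⁻¹ • q) τ‖ := by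
  induction q using QuotientGroup.induction_on with
  | H g =>
    have : σ⁻¹ • (g : SL(2, ℤ) ⧸ H) = ((σ⁻¹ * g : SL(2, ℤ)) : SL(2, ℤ) ⧸ H) := rfl
    rw [this, norm_cosetTranslate_mk hinv, norm_cosetTranslate_mk hinv, mul_inv_rev, inv_inv,
      mul_smul]

lemma mdiff_cosetTranslate {Φ : ℍ → ℂ} (hhol : MDiff Φ) (q : SL(2, ℤ) ⧸ H) :
    MDiff (cosetTranslate H Φ q) :=
  hhol.comp (mdifferentiable_smul (g := Matrix.SpecialLinearGroup.mapGL ℝ (Quotient.out q)⁻¹)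
    (by simp))

variable [Fintype (SL(2, ℤ) ⧸ H)]

/-- The vector of all translates. -/
def translateVec (Φ : ℍ → ℂ) (τ : ℍ) : EuclideanSpace ℂ (SL(2, ℤ) ⧸ H) :=
  WithLp.toLp 2 fun q => cosetTranslate H Φ q τ

lemma norm_translateVec_smul {Φ : ℍ → ℂ} (hinv : ∀ a ∈ H, ∀ τ, ‖Φ (a • τ)‖ = ‖Φ τ‖)
    (σ : SL(2, ℤ)) (τ : ℍ) :
    ‖translateVec (H := H) Φ (σ • τ)‖ = ‖translateVec (H := H) Φ τ‖ := by
  rw [EuclideanSpace.norm_eq, EuclideanSpace.norm_eq]
  congr 1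
  refine Fintype.sum_equiv (MulAction.toPerm σ⁻¹) _ _ fun q => ?_
  simp only [translateVec]
  rw [norm_cosetTranslate_smul hinv]
  rfl

/-- The vector of cusp functions of the translates. -/
def cuspVec (h : ℝ) (Φ : ℍ → ℂ) (q : ℂ) : EuclideanSpace ℂ (SL(2, ℤ) ⧸ H) :=
  WithLp.toLp 2 fun x => cuspFunction h (cosetTranslate H Φ x) q

omit [Fintype (SL(2, ℤ) ⧸ H)] in
lemma cuspVec_qParam {h : ℝ} (hh : 0 < h) {Φ : ℍ → ℂ}
    (hper : ∀ x : SL(2, ℤ) ⧸ H, Periodic (cosetTranslate H Φ x ∘ ofComplex) h) (τ : ℍ) :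
    cuspVec (H := H) h Φ (Periodic.qParam h τ) = translateVec (H := H) Φ τ := by
  unfold cuspVec translateVec
  congr 1
  funext x
  exact eq_cuspFunction τ hh.ne' (hper x)

lemma differentiableOn_cuspVec {h : ℝ} (hh : 0 < h) {Φ : ℍ → ℂ} (hhol : MDiff Φ)
    (hper : ∀ x : SL(2, ℤ) ⧸ H, Periodic (cosetTranslate H Φ x ∘ ofComplex) h)
    (hbdd : ∀ x : SL(2, ℤ) ⧸ H, IsBoundedAtImInfty (cosetTranslate H Φ x)) :
    DifferentiableOn ℂ (cuspVec (H := H) h Φ) (Metric.ball 0 1) := by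
  rw [differentiableOn_euclidean]
  intro x
  exact differentiableOn_cuspFunction_ball hh (hper x) (mdiff_cosetTranslate hhol x) (hbdd x)

/-- **Vector valued maximum principle**, general form. -/
theorem translateVec_eq_const {h : ℝ} (hh : 0 < h) {Φ : ℍ → ℂ} (hhol : MDiff Φ)
    (hinv : ∀ a ∈ H, ∀ τ, ‖Φ (a • τ)‖ = ‖Φ τ‖)
    (hper : ∀ x : SL(2, ℤ) ⧸ H, Periodic (cosetTranslate H Φ x ∘ ofComplex) h)
    (hbdd : ∀ x : SL(2, ℤ) ⧸ H, IsBoundedAtImInfty (cosetTranslate H Φ x)) (τ : ℍ) :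
    translateVec (H := H) Φ τ = cuspVec (H := H) h Φ 0 := by
  have hconst : Set.EqOn (cuspVec (H := H) h Φ) (Function.const ℂ (cuspVec (H := H) h Φ 0))
      (Metric.ball 0 1) := by
    refine Complex.eq_const_of_exists_le (r := Real.exp (-π / h))
      (differentiableOn_cuspVec hh hhol hper hbdd) (Real.exp_nonneg _) ?_ fun q hq => ?_
    · rw [Real.exp_lt_one_iff]
      exact div_neg_of_neg_of_pos (neg_lt_zero.mpr Real.pi_pos) hh
    · rcases eq_or_ne q 0 with rfl | hq'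
      · exact ⟨0, by simpa using Real.exp_nonneg _, le_rfl⟩
      · have hq1 : ‖q‖ < 1 := mem_ball_zero_iff.mp hq
        set z : ℍ := ⟨Periodic.invQParam h q, Periodic.im_invQParam_pos_of_norm_lt_one hh hq1 hq'⟩
          with hz
        obtain ⟨γ, hγ⟩ := ModularGroup.exists_one_half_le_im_smul z
        refine ⟨Periodic.qParam h ((γ • z : ℍ) : ℂ), ?_, ?_⟩
        · rw [mem_closedBall_zero_iff, Periodic.norm_qParam]
          apply Real.exp_le_exp.mpr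
          have : ((γ • z : ℍ) : ℂ).im = (γ • z).im := rfl
          rw [this]
          have h2 : -2 * π * (γ • z).im / h = (-π / h) * (2 * (γ • z).im) := by ring
          rw [h2]
          have h3 : -π / h < 0 := div_neg_of_neg_of_pos (neg_lt_zero.mpr Real.pi_pos) hh
          nlinarith
        · rw [cuspVec_qParam hh hper, norm_translateVec_smul hinv]
          have : q = Periodic.qParam h z := by
            rw [hz]
            exact (Periodic.qParam_right_inv hh.ne' hq').symm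
          rw [this, cuspVec_qParam hh hper]
  have hq : Periodic.qParam h τ ∈ Metric.ball (0 : ℂ) 1 := by
    rw [mem_ball_zero_iff]
    exact Periodic.norm_qParam_lt_one hh τ.im_pos
  rw [← cuspVec_qParam hh hper]
  exact hconst hq

/-- **Vector valued maximum principle**: a holomorphic function on `ℍ` whose norm is invariant
under a finite index subgroup `H` of `SL(2,ℤ)` and all of whose translates are `h`-periodic and
bounded at `i∞` is constant. -/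
theorem eq_const_of_norm_invariant_general {h : ℝ} (hh : 0 < h) {Φ : ℍ → ℂ} (hhol : MDiff Φ)
    (hinv : ∀ a ∈ H, ∀ τ, ‖Φ (a • τ)‖ = ‖Φ τ‖)
    (hper : ∀ (δ : SL(2, ℤ)) (z : ℍ), Φ (δ • (h +ᵥ z)) = Φ (δ • z))
    (hbdd : ∀ δ : SL(2, ℤ), IsBoundedAtImInfty (fun z : ℍ => Φ (δ • z))) :
    ∃ c : ℂ, ∀ z, Φ z = c := by
  have hper' : ∀ x : SL(2, ℤ) ⧸ H, Periodic (cosetTranslate H Φ x ∘ ofComplex) h := by
    intro x w
    by_cases hw : 0 < im w
    · have hw' : 0 < im (w + h) := by simpa using hw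
      simp only [comp_apply, ofComplex_apply_of_im_pos hw', ofComplex_apply_of_im_pos hw]
      unfold cosetTranslate
      have : (⟨w + h, hw'⟩ : ℍ) = h +ᵥ (⟨w, hw⟩ : ℍ) := by
        ext
        simp [add_comm]
      rw [this, hper]
    · have hw0 : im w ≤ 0 := not_lt.mp hw
      have hw' : im (w + h) ≤ 0 := by simpa using hw0
      simp [ofComplex_apply_of_im_nonpos hw', ofComplex_apply_of_im_nonpos hw0]
  have hbdd' : ∀ x : SL(2, ℤ) ⧸ H, IsBoundedAtImInfty (cosetTranslate H Φ x) := fun x => hbdd _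
  set g₀ : SL(2, ℤ) := Quotient.out ((1 : SL(2, ℤ)) : SL(2, ℤ) ⧸ H) with hg₀
  refine ⟨cuspVec (H := H) h Φ 0 ((1 : SL(2, ℤ)) : SL(2, ℤ) ⧸ H), fun z => ?_⟩
  have key := translateVec_eq_const hh hhol hinv hper' hbdd' (g₀ • z)
  have key2 := congrArg (fun v : EuclideanSpace ℂ (SL(2, ℤ) ⧸ H) =>
    v ((1 : SL(2, ℤ)) : SL(2, ℤ) ⧸ H)) key
  simp only [translateVec, cosetTranslate] at key2
  rw [← key2, ← hg₀, ← mul_smul, inv_mul_cancel, one_smul]

end General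

/-- **(I1)** of PLAN ES: the maximum principle for `Γ₀(N)`. -/
theorem eq_const_of_norm_invariant (N : ℕ) [NeZero N] {Φ : ℍ → ℂ} (hhol : MDiff Φ)
    (hinv : ∀ γ ∈ CongruenceSubgroup.Gamma0 N, ∀ z : ℍ, ‖Φ (γ • z)‖ = ‖Φ z‖)
    (hper : ∀ (δ : SL(2, ℤ)) (z : ℍ), Φ (δ • ((N : ℝ) +ᵥ z)) = Φ (δ • z))
    (hbdd : ∀ δ : SL(2, ℤ), IsBoundedAtImInfty (fun z : ℍ => Φ (δ • z))) :
    ∃ c : ℂ, ∀ z, Φ z = c := by
  letI : Fintype (SL(2, ℤ) ⧸ CongruenceSubgroup.Gamma0 N) := Fintype.ofFinite _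
  have hN : (0 : ℝ) < N := by exact_mod_cast Nat.pos_of_ne_zero (NeZero.ne N)
  exact eq_const_of_norm_invariant_general (H := CongruenceSubgroup.Gamma0 N) hN hhol hinv hper hbdd

end

end Fermat.Agent.S21
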