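/-
S21 (PLAN ES), chunk (I-core): a `Γ₀(N)`-invariant function `A + conj C` with `A`, `C`
holomorphic, all `SL(2,ℤ)`-translates `N`-periodic and bounded at `i∞`, has `A` and `C` constant.
-/
import Fermat.Agent.S21.MaxPrinciple

set_option autoImplicit false

namespace Fermat.Agent.S21

open UpperHalfPlane hiding I
open ModularForm Complex Filter Function Metric Set
open scoped MatrixGroups Manifold Topology Real ComplexConjugate

noncomputable section

lemma eq_zero_of_forall_exp_real_mul_eq_one {d : ℂ} (hd : ∀ t : ℝ, Complex.exp (t * d) = 1) :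
    d = 0 := by
  set t : ℝ := 1 / (‖d‖ + 1) with ht
  have htpos : 0 < t := by positivity
  obtain ⟨n, hn⟩ := Complex.exp_eq_one_iff.mp (hd t)
  have hnorm : ‖(t : ℂ) * d‖ < 1 := by
    rw [norm_mul, Complex.norm_real, Real.norm_of_nonneg htpos.le, ht, one_div,
      inv_mul_lt_one₀ (by positivity)]
    linarith
  have hn0 : n = 0 := by
    by_contra hne
    have h1 : (1 : ℝ) ≤ |(n : ℝ)| := by
      have : (1 : ℤ) ≤ |n| := Int.one_le_abs hne
      exact_mod_cast this
    have h2 : ‖(n : ℂ) * (2 * π * I)‖ = |(n : ℝ)| * (2 * π) := by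
      rw [norm_mul, norm_mul, norm_mul, Complex.norm_intCast, Complex.norm_I, mul_one,
        Complex.norm_ofNat, Complex.norm_real, Real.norm_of_nonneg Real.pi_pos.le]
    rw [hn, h2] at hnorm
    have : (2 : ℝ) * π > 6 := by linarith [Real.pi_gt_three]
    nlinarith
  rw [hn0] at hn
  simp only [Int.cast_zero, zero_mul, mul_eq_zero, Complex.ofReal_eq_zero] at hn
  rcases hn with h | h
  · exact absurd h htpos.ne'
  · exact h

lemma mdiff_cexp {G : ℍ → ℂ} (hG : MDiff G) : MDiff (fun z => Complex.exp (G z)) := by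
  rw [UpperHalfPlane.mdifferentiable_iff] at hG ⊢
  exact hG.cexp

/-- **(I-core)** -/
theorem const_of_invariant_harmonic (N : ℕ) [NeZero N] {A C : ℍ → ℂ} (hA : MDiff A)
    (hC : MDiff C)
    (hinv : ∀ γ ∈ CongruenceSubgroup.Gamma0 N, ∀ z : ℍ,
      A (γ • z) + conj (C (γ • z)) = A z + conj (C z))
    (hperA : ∀ (δ : SL(2, ℤ)) (z : ℍ), A (δ • ((N : ℝ) +ᵥ z)) = A (δ • z))
    (hperC : ∀ (δ : SL(2, ℤ)) (z : ℍ), C (δ • ((N : ℝ) +ᵥ z)) = C (δ • z))
    (hbddA : ∀ δ : SL(2, ℤ), IsBoundedAtImInfty (fun z : ℍ => A (δ • z)))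
    (hbddC : ∀ δ : SL(2, ℤ), IsBoundedAtImInfty (fun z : ℍ => C (δ • z))) :
    (∃ a : ℂ, ∀ z, A z = a) ∧ (∃ c : ℂ, ∀ z, C z = c) := by
  -- the key: for every `u`, `exp (u A + conj u C)` is constant
  have key : ∀ u : ℂ, ∃ c : ℂ, ∀ z : ℍ, Complex.exp (u * A z + conj u * C z) = c := by
    intro u
    have hre : ∀ z : ℍ, (u * A z + conj u * C z).re = (u * (A z + conj (C z))).re := by
      intro z
      have : (conj u * C z).re = (u * conj (C z)).re := by
        rw [← Complex.conj_re (u * conj (C z)), map_mul, Complex.conj_conj]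
      rw [Complex.add_re, this, mul_add, Complex.add_re]
    refine eq_const_of_norm_invariant N (Φ := fun z => Complex.exp (u * A z + conj u * C z))
      ?_ ?_ ?_ ?_
    · exact mdiff_cexp ((mdifferentiable_const.mul hA).add (mdifferentiable_const.mul hC))
    · intro γ hγ z
      simp only [Complex.norm_exp, hre, hinv γ hγ z]
    · intro δ z
      simp only [hperA, hperC]
    · intro δ
      obtain ⟨MA, YA, hMA⟩ := UpperHalfPlane.isBoundedAtImInfty_iff.mp (hbddA δ)
      obtain ⟨MC, YC, hMC⟩ := UpperHalfPlane.isBoundedAtImInfty_iff.mp (hbddC δ)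
      rw [UpperHalfPlane.isBoundedAtImInfty_iff]
      refine ⟨Real.exp (‖u‖ * MA + ‖u‖ * MC), max YA YC, fun z hz => ?_⟩
      rw [Complex.norm_exp]
      apply Real.exp_le_exp.mpr
      have h1 : ‖A (δ • z)‖ ≤ MA := hMA z (le_trans (le_max_left _ _) hz)
      have h2 : ‖C (δ • z)‖ ≤ MC := hMC z (le_trans (le_max_right _ _) hz)
      calc (u * A (δ • z) + conj u * C (δ • z)).re
          ≤ ‖u * A (δ • z) + conj u * C (δ • z)‖ := Complex.re_le_norm _
        _ ≤ ‖u * A (δ • z)‖ + ‖conj u * C (δ • z)‖ := norm_add_le _ _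
        _ = ‖u‖ * ‖A (δ • z)‖ + ‖u‖ * ‖C (δ • z)‖ := by
            rw [norm_mul, norm_mul, Complex.norm_conj]
        _ ≤ ‖u‖ * MA + ‖u‖ * MC := by gcongr
  -- differences vanish
  have hdiff : ∀ z w : ℍ, A z - A w = 0 ∧ C z - C w = 0 := by
    intro z w
    have hexp : ∀ u : ℂ, Complex.exp (u * (A z - A w) + conj u * (C z - C w)) = 1 := by
      intro u
      obtain ⟨c, hc⟩ := key u
      have h1 := hc z
      have h2 := hc w
      have : u * (A z - A w) + conj u * (C z - C w)
          = (u * A z + conj u * C z) - (u * A w + conj u * C w) := by ring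
      rw [this, Complex.exp_sub, h1, h2, div_self]
      rw [← h2]
      exact Complex.exp_ne_zero _
    have hsum : (A z - A w) + (C z - C w) = 0 := by
      apply eq_zero_of_forall_exp_real_mul_eq_one
      intro t
      have := hexp (t : ℂ)
      rw [Complex.conj_ofReal] at this
      rw [← this]
      congr 1
      ring
    have hdif : I * ((A z - A w) - (C z - C w)) = 0 := by
      apply eq_zero_of_forall_exp_real_mul_eq_one
      intro t
      have := hexp ((t : ℂ) * I)
      rw [map_mul, Complex.conj_ofReal, Complex.conj_I] at this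
      rw [← this]
      congr 1
      ring
    have hdif' : (A z - A w) - (C z - C w) = 0 := by
      rcases mul_eq_zero.mp hdif with h | h
      · exact absurd h Complex.I_ne_zero
      · exact h
    constructor
    · linear_combination (1 / 2 : ℂ) * hsum + (1 / 2 : ℂ) * hdif'
    · linear_combination (1 / 2 : ℂ) * hsum - (1 / 2 : ℂ) * hdif'
  exact ⟨⟨A UpperHalfPlane.I, fun z => sub_eq_zero.mp (hdiff z _).1⟩,
    ⟨C UpperHalfPlane.I, fun z => sub_eq_zero.mp (hdiff z _).2⟩⟩

end

end Fermat.Agent.S21
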