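import Mathlib
import Fermat.Prelude.Def_ModularCurve_PeriodMap
import Fermat.Prelude.Def_ModularCurve_PeriodMapBundled

/-!
# S21 helper (P4): period homomorphisms are parabolic

* `exists_conj_c_eq_zero`: an element `g` of `SL(2, ℤ)` with `trace ^ 2 = 4` fixes a cusp:
  there is `δ ∈ SL(2, ℤ)` with `(δ⁻¹ * g * δ) 1 0 = 0`.
* `exists_conj_T_zpow_smul`: hence `g • (δ • z) = δ • (T ^ n • z)` for all `z`.
* `periodMap_mem_parabolicHoms`: `periodMap N f` is a parabolic homomorphism.
-/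

set_option autoImplicit false

namespace Fermat.Agent.S21

open UpperHalfPlane CongruenceSubgroup Filter Topology ModularCurve ModularCurve.Period
open scoped MatrixGroups

/-- A parabolic (or `±1`) element of `SL(2, ℤ)` is conjugate to an upper triangular matrix. -/
theorem exists_conj_c_eq_zero (g : SL(2, ℤ))
    (hg : (g : Matrix (Fin 2) (Fin 2) ℤ).trace ^ 2 = 4) :
    ∃ δ : SL(2, ℤ), (δ⁻¹ * g * δ) 1 0 = 0 := by
  have hdet : g 0 0 * g 1 1 - g 0 1 * g 1 0 = 1 := by
    have := g.det_coe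
    rwa [Matrix.det_fin_two] at this
  have htr : (g 0 0 + g 1 1) ^ 2 = 4 := by
    rwa [Matrix.trace_fin_two] at hg
  by_cases hc : g 1 0 = 0
  · refine ⟨1, ?_⟩
    rw [inv_one, one_mul, mul_one]
    exact hc
  -- `s = ±1` is half the trace
  obtain ⟨s, hs, hss⟩ : ∃ s : ℤ, g 0 0 + g 1 1 = 2 * s ∧ s * s = 1 := by
    have h : (g 0 0 + g 1 1 - 2) * (g 0 0 + g 1 1 + 2) = 0 := by linear_combination htr
    rcases mul_eq_zero.mp h with h | h
    · exact ⟨1, by linear_combination h, by norm_num⟩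
    · exact ⟨-1, by linear_combination h, by norm_num⟩
  set a := g 0 0 with ha
  set b := g 0 1 with hb
  set c := g 1 0 with hc'
  set d := g 1 1 with hd
  set m := a - s with hm
  have hrel : m * m + b * c = 0 := by
    rw [hm]
    linear_combination a * hs + hss - hdet
  -- the primitive fixed vector
  have hgpos : 0 < Int.gcd m c := Int.gcd_pos_of_ne_zero_right m hc
  have hg0 : (Int.gcd m c : ℤ) ≠ 0 := by exact_mod_cast hgpos.ne'
  set p := m / (Int.gcd m c : ℤ) with hpdef
  set q := c / (Int.gcd m c : ℤ) with hqdef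
  have hp : (Int.gcd m c : ℤ) * p = m := Int.mul_ediv_cancel' (Int.gcd_dvd_left m c)
  have hq : (Int.gcd m c : ℤ) * q = c := Int.mul_ediv_cancel' (Int.gcd_dvd_right m c)
  have hcop : IsCoprime p q := by
    rw [Int.isCoprime_iff_gcd_eq_one]
    exact Int.gcd_div_gcd_div_gcd hgpos
  obtain ⟨u, v, huv⟩ := hcop
  -- relations for `p, q`
  have h1 : m * p + b * q = 0 := by
    have : (Int.gcd m c : ℤ) * (m * p + b * q) = 0 := by
      linear_combination m * hp + b * hq + hrel
    rcases mul_eq_zero.mp this with h | h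
    · exact absurd h hg0
    · exact h
  have h2 : c * p - m * q = 0 := by
    have : (Int.gcd m c : ℤ) * (c * p - m * q) = 0 := by
      linear_combination c * hp - m * hq
    rcases mul_eq_zero.mp this with h | h
    · exact absurd h hg0
    · exact h
  -- the conjugating matrix
  let δ : SL(2, ℤ) := ⟨!![p, -v; q, u], by rw [Matrix.det_fin_two_of]; linear_combination huv⟩
  refine ⟨δ, ?_⟩
  have hinv : ((δ⁻¹ : SL(2, ℤ)) : Matrix (Fin 2) (Fin 2) ℤ) = !![u, v; -q, p] := by
    rw [Matrix.SpecialLinearGroup.coe_inv, Matrix.adjugate_fin_two]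
    simp [δ]
  have hd' : d = 2 * s - a := by linear_combination hs
  show ((δ⁻¹ * g * δ : SL(2, ℤ)) : Matrix (Fin 2) (Fin 2) ℤ) 1 0 = 0
  rw [Matrix.SpecialLinearGroup.coe_mul, Matrix.SpecialLinearGroup.coe_mul, hinv]
  simp only [Matrix.mul_apply, Fin.sum_univ_two, δ]
  simp only [Matrix.of_apply, Matrix.cons_val', Matrix.cons_val_zero, Matrix.cons_val_one,
    Matrix.cons_val_fin_one]
  show (-q * a + p * c) * p + (-q * b + p * d) * q = 0
  rw [hd', hm] at *
  linear_combination p * h2 - q * h1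

/-- A parabolic (or `±1`) element `g` of `SL(2, ℤ)` acts as a translation in the coordinate
`δ⁻¹ • z` at the cusp `δ • ∞` it fixes. -/
theorem exists_conj_T_zpow_smul (g : SL(2, ℤ))
    (hg : (g : Matrix (Fin 2) (Fin 2) ℤ).trace ^ 2 = 4) :
    ∃ (δ : SL(2, ℤ)) (n : ℤ), ∀ z : ℍ, g • (δ • z) = δ • ((n : ℝ) +ᵥ z) := by
  obtain ⟨δ, hδ⟩ := exists_conj_c_eq_zero g hg
  obtain ⟨n, hn⟩ := ModularGroup.exists_eq_T_zpow_of_c_eq_zero hδ
  refine ⟨δ, n, fun z => ?_⟩
  have h := hn z
  rw [modular_T_zpow_smul] at h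
  rw [← h, ← mul_smul, ← mul_smul]
  congr 1
  group

theorem tendsto_vadd_atImInfty (x : ℝ) :
    Tendsto (fun w : ℍ => x +ᵥ w) atImInfty atImInfty := by
  unfold atImInfty
  rw [tendsto_comap_iff]
  have : (im ∘ fun w : ℍ => x +ᵥ w) = im := by
    funext w
    simp [vadd_im]
  rw [this]
  exact tendsto_comap

/-- The period of an equivariant primitive (with limits at all cusps) along a parabolic element
vanishes. -/
theorem period_eq_zero_of_trace_sq {N : ℕ} {f : CuspForm (Gamma0 N) 2} {F : ℍ → ℂ}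
    (hF : HasEquivariantPrimitive N f F) (γ : Gamma0 N)
    (hγ : ((γ : SL(2, ℤ)) : Matrix (Fin 2) (Fin 2) ℤ).trace ^ 2 = 4) :
    hF.2.2.1.period γ = 0 := by
  obtain ⟨δ, n, h⟩ := exists_conj_T_zpow_smul (γ : SL(2, ℤ)) hγ
  obtain ⟨L, hL⟩ := hF.2.2.2 δ
  have hper := hF.2.2.1.sub_eq_period γ
  have h1 : Tendsto (fun w : ℍ => F (δ • ((n : ℝ) +ᵥ w))) atImInfty (𝓝 L) :=
    hL.comp (tendsto_vadd_atImInfty (n : ℝ))
  have h2 : Tendsto (fun w : ℍ => F (δ • ((n : ℝ) +ᵥ w)) - F (δ • w)) atImInfty (𝓝 (L - L)) :=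
    h1.sub hL
  have h3 : (fun w : ℍ => F (δ • ((n : ℝ) +ᵥ w)) - F (δ • w)) =
      fun _ => hF.2.2.1.period γ := by
    funext w
    rw [← h w]
    exact hper (δ • w)
  rw [h3, sub_self] at h2
  exact tendsto_nhds_unique tendsto_const_nhds h2

/-- **(P4)** The period map of a weight two cusp form is a parabolic homomorphism. -/
theorem periodMap_mem_parabolicHoms (N : ℕ) [NeZero N] (f : CuspForm (Gamma0 N) 2) :
    ModularCurve.periodMap N f ∈ ModularCurve.Period.parabolicHoms ℂ (Gamma0 N) ℂ := by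
  classical
  by_cases hex : ∃ F : ℍ → ℂ, HasEquivariantPrimitive N f F
  · obtain ⟨F, hF⟩ := hex
    obtain ⟨F₀, h₀, heq⟩ := periodMap_def N f hF
    rw [heq, mem_parabolicHoms_iff]
    intro γ hγ
    rw [IsEquivariantPrimitive.periodHom_apply]
    exact period_eq_zero_of_trace_sq h₀ γ hγ
  · have : ModularCurve.periodMap N f = 0 := by
      unfold ModularCurve.periodMap
      rw [dif_neg hex]
    rw [this]
    exact Submodule.zero_mem _

end Fermat.Agent.S21
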