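import Fermat.Agent.S21.Prim
import Fermat.Agent.S21.Parabolic
import Fermat.Agent.S21.InjCore
import Fermat.Agent.S21.ConjReflect

set_option autoImplicit false

/-!
# S21 (Plan ES), chunk (I-glue): the period pair map is injective
-/

namespace Fermat.Agent.S21

open UpperHalfPlane Function Complex Filter CongruenceSubgroup ModularCurve ModularCurve.Period
open scoped MatrixGroups Manifold Topology ComplexConjugate

noncomputable section

variable {N : ℕ} [NeZero N]

/-- the primitive is invariant under parabolic elements of `Γ₀(N)`. -/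
theorem primF_smul_of_trace_sq (φ : CuspForm (Gamma0 N) 2) (γ : SL(2, ℤ)) (hγ : γ ∈ Gamma0 N)
    (htr : (γ : Matrix (Fin 2) (Fin 2) ℤ).trace ^ 2 = 4) (z : ℍ) :
    primF φ (γ • z) = primF φ z := by
  have h1 := periodMap_apply φ ⟨γ, hγ⟩ z
  have h2 : periodMap N φ (Additive.ofMul (⟨γ, hγ⟩ : Gamma0 N)) = 0 :=
    (mem_parabolicHoms_iff.mp (periodMap_mem_parabolicHoms N φ)) ⟨γ, hγ⟩ htr
  rw [h2] at h1
  exact (sub_eq_zero.mp h1.symm)

theorem primF_conj_T_zpow_smul (φ : CuspForm (Gamma0 N) 2) (δ : SL(2, ℤ)) (k : ℤ) (w : ℍ) :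
    primF φ ((δ * ModularGroup.T ^ ((N : ℤ) * k) * δ⁻¹) • w) = primF φ w :=
  primF_smul_of_trace_sq φ _ (conj_T_zpow_mem_Gamma0 N δ k)
    (by rw [trace_conj_T_zpow]; norm_num) w

theorem primF_smul_vadd (φ : CuspForm (Gamma0 N) 2) (δ : SL(2, ℤ)) (z : ℍ) :
    primF φ (δ • (((N : ℕ) : ℝ) +ᵥ z)) = primF φ (δ • z) := by
  have h := smul_vadd_eq_conj_smul N δ 1 z
  have hc : ((((N : ℤ) * 1 : ℤ)) : ℝ) = ((N : ℕ) : ℝ) := by push_cast; ring
  rw [hc] at h
  rw [h, primF_conj_T_zpow_smul]

theorem primF_smul_neg_vadd (φ : CuspForm (Gamma0 N) 2) (δ : SL(2, ℤ)) (z : ℍ) :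
    primF φ (δ • ((-((N : ℕ) : ℝ)) +ᵥ z)) = primF φ (δ • z) := by
  have h := smul_vadd_eq_conj_smul N δ (-1) z
  have hc : ((((N : ℤ) * (-1) : ℤ)) : ℝ) = -((N : ℕ) : ℝ) := by push_cast; ring
  rw [hc] at h
  rw [h, primF_conj_T_zpow_smul]

theorem isBoundedAtImInfty_primF_smul (φ : CuspForm (Gamma0 N) 2) (δ : SL(2, ℤ)) :
    IsBoundedAtImInfty (fun z : ℍ => primF φ (δ • z)) := by
  obtain ⟨G, c, hG, h⟩ := exists_primF_translate φ δ
  have h1 : IsBoundedAtImInfty G := hG.boundedAtFilter
  have h2 : IsBoundedAtImInfty (fun _ : ℍ => c) := Filter.const_boundedAtFilter _ c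
  have h3 : (fun z : ℍ => primF φ (δ • z)) = G + fun _ : ℍ => c := by
    funext z
    exact h z
  rw [h3]
  exact h1.add h2

/-- **(I)** injectivity of the period pair map. -/
theorem periodHomPair_injective (N : ℕ) [NeZero N] :
    Function.Injective (ModularCurve.periodHomPair N) := by
  rw [injective_iff_map_eq_zero]
  rintro ⟨f, g⟩ h
  rw [periodHomPair_apply] at h
  -- the two primitives
  obtain ⟨s, hs⟩ : ∃ s : CuspForm (Gamma0 N) 2, s = f + g := ⟨_, rfl⟩
  obtain ⟨d, hd⟩ : ∃ d : CuspForm (Gamma0 N) 2, d = f - g := ⟨_, rfl⟩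
  have hpadd : periodMap N s = periodMap N f + periodMap N g := by
    rw [hs]; exact (periodMapLin N).map_add f g
  have hpsub : periodMap N d = periodMap N f - periodMap N g := by
    rw [hd]; exact (periodMapLin N).map_sub f g
  have hconst := const_of_invariant_harmonic N (A := primF s) (C := reflect (primF d))
    (mdiff_primF s) (mdiff_reflect (hasDerivAt_primF d)) ?_ ?_ ?_ ?_ ?_
  · obtain ⟨⟨a, ha⟩, ⟨c, hc⟩⟩ := hconst
    have h1 : ∀ τ, s τ = 0 := eq_zero_of_const_primitive (hasDerivAt_primF s) ha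
    have h2 : ∀ τ, d τ = 0 := eq_zero_of_const_reflect (hasDerivAt_primF d) hc
    have hf : f = 0 := by
      ext τ
      have e1 : f τ + g τ = 0 := by have := h1 τ; rwa [hs] at this
      have e2 : f τ - g τ = 0 := by have := h2 τ; rwa [hd] at this
      have : 2 * f τ = 0 := by linear_combination e1 + e2
      simpa using this
    have hg : g = 0 := by
      ext τ
      have e1 : f τ + g τ = 0 := by have := h1 τ; rwa [hs] at this
      have e2 : f τ - g τ = 0 := by have := h2 τ; rwa [hd] at this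
      have : 2 * g τ = 0 := by linear_combination e1 - e2
      simpa using this
    rw [hf, hg]
    rfl
  · -- invariance of `A + conj (reflect B)`
    intro γ hγ z
    rw [conj_reflect, conj_reflect, J_smul_smul]
    have e1 := periodMap_apply s ⟨γ, hγ⟩ z
    have e2 := periodMap_apply d (jConjGamma0 N ⟨γ, hγ⟩) (J • z)
    rw [jConjGamma0_coe] at e2
    have e3 := congrArg (fun ψ : Additive (Gamma0 N) →+ ℂ => ψ (Additive.ofMul ⟨γ, hγ⟩)) h
    simp only [AddMonoidHom.add_apply, AddMonoidHom.sub_apply, charInvolution_apply,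
      toMul_ofMul, AddMonoidHom.zero_apply] at e3
    rw [hpadd, AddMonoidHom.add_apply] at e1
    rw [hpsub, AddMonoidHom.sub_apply] at e2
    change primF s (γ • z) + primF d (jConjSL γ • (J • z)) =
      primF s z + primF d (J • z)
    linear_combination e3 - e1 - e2
  · intro δ z
    exact primF_smul_vadd s δ z
  · intro δ z
    rw [reflect_smul, reflect_smul, J_smul_vadd, primF_smul_neg_vadd]
  · intro δ
    exact isBoundedAtImInfty_primF_smul s δ
  · intro δ
    have h1 := isBoundedAtImInfty_primF_smul d (jConjSL δ)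
    have h2 := isBoundedAtImInfty_conj (isBoundedAtImInfty_comp_J h1)
    have h3 : (fun z : ℍ => reflect (primF d) (δ • z)) =
        fun z : ℍ => conj (primF d (jConjSL δ • (J • z))) := by
      funext z
      rw [reflect_smul]
    rw [h3]
    exact h2

end

end Fermat.Agent.S21
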