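import Mathlib
import Fermat.Agent.S21.Prim

set_option autoImplicit false

/-!
# S21, analytic half (P): periods of parabolic elements vanish

An element of `SL(2,ℤ)` with `trace ^ 2 = 4` is conjugate in `SL(2,ℤ)` to `± T ^ m`.  Hence the
period of such an element of `Γ₀(N)` vanishes, and the range of the period pair lies in the
parabolic homomorphisms.
-/

namespace Fermat.Agent.S21

open UpperHalfPlane ModularForm CongruenceSubgroup Filter Topology
open scoped Manifold MatrixGroups ModularForm Derivative Real Pointwise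

noncomputable section

/-- A primitive eigenvector of a matrix in `SL(2,ℤ)` with trace `2 ε`, `ε = ± 1`. -/
theorem exists_coprime_eigenvector {p q r s ε : ℤ} (hdet : p * s - q * r = 1)
    (htr : p + s = 2 * ε) (hε : ε * ε = 1) :
    ∃ a c : ℤ, IsCoprime a c ∧ p * a + q * c = ε * a ∧ r * a + s * c = ε * c := by
  set x := p - ε with hx
  have hs : s = ε - x := by rw [hx]; linarith
  have hp : p = ε + x := by rw [hx]; ring
  have hxq : x * x = -(q * r) := by
    have : (ε + x) * (ε - x) - q * r = 1 := by rw [← hp, ← hs]; exact hdet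
    nlinarith
  by_cases hq : q = 0
  · have hx0 : x = 0 := by
      have : x * x = 0 := by rw [hxq, hq]; ring
      exact mul_self_eq_zero.mp this
    refine ⟨0, 1, isCoprime_zero_left.mpr isUnit_one, ?_, ?_⟩
    · rw [hq]; ring
    · rw [hs, hx0]; ring
  · have hgpos : 0 < Int.gcd q x := Int.gcd_pos_of_ne_zero_left _ hq
    set g : ℤ := (Int.gcd q x : ℤ) with hg
    have hgpos' : 0 < g := by rw [hg]; exact_mod_cast hgpos
    obtain ⟨a, ha⟩ : g ∣ q := Int.gcd_dvd_left _ _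
    obtain ⟨c', hc'⟩ : g ∣ x := Int.gcd_dvd_right _ _
    have hcop : IsCoprime a c' := by
      have h1 := Int.gcd_div_gcd_div_gcd hgpos
      rw [← hg] at h1
      have e1 : q / g = a := by rw [ha]; exact Int.mul_ediv_cancel_left _ hgpos'.ne'
      have e2 : x / g = c' := by rw [hc']; exact Int.mul_ediv_cancel_left _ hgpos'.ne'
      rw [e1, e2] at h1
      exact Int.isCoprime_iff_gcd_eq_one.mpr h1
    refine ⟨a, -c', hcop.neg_right, ?_, ?_⟩
    · -- `x a - q c' = 0`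
      have h0 : g * (x * a - q * c') = 0 := by
        have : g * (x * a - q * c') = x * (g * a) - q * (g * c') := by ring
        rw [this, ← ha, ← hc']; ring
      have h1 : x * a - q * c' = 0 := (mul_eq_zero.mp h0).resolve_left hgpos'.ne'
      rw [hp]; linear_combination h1
    · -- `r a + x c' = 0`
      have h0 : g * g * (r * a + x * c') = 0 := by
        have h2 : g * (g * (r * a + x * c')) = g * (r * (g * a) + x * (g * c')) := by ring
        rw [mul_assoc, h2, ← ha, ← hc']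
        have : r * q + x * x = 0 := by rw [hxq]; ring
        rw [this, mul_zero]
      have h1 : r * a + x * c' = 0 :=
        (mul_eq_zero.mp h0).resolve_left (mul_ne_zero hgpos'.ne' hgpos'.ne')
      rw [hs]; linear_combination h1

/-- An element of `SL(2,ℤ)` with `trace ^ 2 = 4` is conjugate to an upper triangular matrix. -/
theorem exists_conj_upper (γ : SL(2, ℤ))
    (h : (γ : Matrix (Fin 2) (Fin 2) ℤ).trace ^ 2 = 4) :
    ∃ β δ : SL(2, ℤ), γ * δ = δ * β ∧ β 1 0 = 0 := by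
  have htr : (γ : Matrix (Fin 2) (Fin 2) ℤ).trace = γ 0 0 + γ 1 1 := Matrix.trace_fin_two _
  obtain ⟨ε, hε, htε⟩ : ∃ ε : ℤ, ε * ε = 1 ∧ γ 0 0 + γ 1 1 = 2 * ε := by
    have h2 : ((γ : Matrix (Fin 2) (Fin 2) ℤ).trace - 2) *
        ((γ : Matrix (Fin 2) (Fin 2) ℤ).trace + 2) = 0 := by nlinarith
    rcases mul_eq_zero.mp h2 with h3 | h3
    · exact ⟨1, by norm_num, by rw [← htr]; linarith⟩
    · exact ⟨-1, by norm_num, by rw [← htr]; linarith⟩
  have hdet : γ 0 0 * γ 1 1 - γ 0 1 * γ 1 0 = 1 := by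
    have := γ.det_coe
    rw [Matrix.det_fin_two] at this
    exact this
  obtain ⟨a, c, hcop, h1, h2⟩ := exists_coprime_eigenvector hdet htε hε
  obtain ⟨κ, -, hκ⟩ := ModularGroup.bottom_row_surj (R := ℤ)
    (show ![-c, a] ∈ {cd : Fin 2 → ℤ | IsCoprime (cd 0) (cd 1)} by
      simpa using hcop.symm.neg_left)
  have hκ0 : κ 1 0 = -c := by have := congrFun hκ 0; simpa using this
  have hκ1 : κ 1 1 = a := by have := congrFun hκ 1; simpa using this
  have hκdet : κ 0 0 * κ 1 1 - κ 0 1 * κ 1 0 = 1 := by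
    have := κ.det_coe
    rw [Matrix.det_fin_two] at this
    exact this
  refine ⟨κ * γ * κ⁻¹, κ⁻¹, by group, ?_⟩
  -- the vector computation
  set V : Fin 2 → ℤ := ![a, c] with hV
  have hκV : (κ : Matrix (Fin 2) (Fin 2) ℤ).mulVec V = ![1, 0] := by
    ext i
    fin_cases i
    · simp [Matrix.mulVec, dotProduct, Fin.sum_univ_two, hV]
      rw [hκ0, hκ1] at hκdet
      linarith
    · simp [Matrix.mulVec, dotProduct, Fin.sum_univ_two, hV, hκ0, hκ1]
      ring
  have hγV : (γ : Matrix (Fin 2) (Fin 2) ℤ).mulVec V = ε • V := by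
    ext i
    fin_cases i
    · simp [Matrix.mulVec, dotProduct, Fin.sum_univ_two, hV]
      exact h1
    · simp [Matrix.mulVec, dotProduct, Fin.sum_univ_two, hV]
      exact h2
  have hβ : ((κ * γ * κ⁻¹ : SL(2, ℤ)) : Matrix (Fin 2) (Fin 2) ℤ).mulVec ![1, 0] = ε • ![1, 0] := by
    have e1 : ((κ * γ * κ⁻¹ : SL(2, ℤ)) : Matrix (Fin 2) (Fin 2) ℤ) *
        (κ : Matrix (Fin 2) (Fin 2) ℤ) = (κ : Matrix (Fin 2) (Fin 2) ℤ) *
          (γ : Matrix (Fin 2) (Fin 2) ℤ) := by
      rw [← Matrix.SpecialLinearGroup.coe_mul, ← Matrix.SpecialLinearGroup.coe_mul]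
      congr 1
      group
    rw [← hκV, Matrix.mulVec_mulVec, e1, ← Matrix.mulVec_mulVec, hγV, Matrix.mulVec_smul, hκV]
  have := congrFun hβ 1
  simpa [Matrix.mulVec, dotProduct, Fin.sum_univ_two] using this

/-- An upper triangular element of `SL(2,ℤ)` acts on `ℍ` as an integer translation. -/
theorem smul_eq_vadd_of_upper (β : SL(2, ℤ)) (hβ : β 1 0 = 0) :
    ∃ m : ℤ, ∀ w : ℍ, β • w = ((m : ℝ) +ᵥ w : ℍ) := by
  have hdet : β 0 0 * β 1 1 = 1 := by
    have := β.det_coe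
    rw [Matrix.det_fin_two, hβ, mul_zero, sub_zero] at this
    exact this
  have hsq : β 1 1 * β 1 1 = 1 ∧ β 0 0 = β 1 1 := by
    rcases Int.mul_eq_one_iff_eq_one_or_neg_one.mp hdet with ⟨h1, h2⟩ | ⟨h1, h2⟩
    · rw [h1, h2]; norm_num
    · rw [h1, h2]; norm_num
  refine ⟨β 1 1 * β 0 1, fun w => ?_⟩
  ext
  rw [UpperHalfPlane.coe_specialLinearGroup_apply, coe_vadd, hβ, hsq.2]
  have hsqC : ((β 1 1 : ℤ) : ℂ) * ((β 1 1 : ℤ) : ℂ) = 1 := by exact_mod_cast hsq.1
  have h11 : ((β 1 1 : ℤ) : ℂ) ≠ 0 := by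
    intro h0
    rw [h0, mul_zero] at hsqC
    exact zero_ne_one hsqC
  have key : ∀ (B Dd W : ℂ), Dd * Dd = 1 → Dd ≠ 0 →
      (Dd * W + B) / ((0 : ℂ) * W + Dd) = Dd * B + W := by
    intro B Dd W h hD
    rw [zero_mul, zero_add, div_eq_iff hD]
    linear_combination (-B) * h
  simp only [algebraMap_int_eq, Int.coe_castRingHom, Complex.ofReal_intCast, Int.cast_zero]
  push_cast
  exact key _ _ _ hsqC h11

/-- **(P1)** a `trace ^ 2 = 4` element of `SL(2,ℤ)` is a translation in suitable coordinates. -/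
theorem exists_smul_eq_vadd (γ : SL(2, ℤ))
    (h : (γ : Matrix (Fin 2) (Fin 2) ℤ).trace ^ 2 = 4) :
    ∃ (δ : SL(2, ℤ)) (m : ℤ), ∀ w : ℍ, γ • (δ • w) = δ • ((m : ℝ) +ᵥ w : ℍ) := by
  obtain ⟨β, δ, hconj, hβ⟩ := exists_conj_upper γ h
  obtain ⟨m, hm⟩ := smul_eq_vadd_of_upper β hβ
  refine ⟨δ, m, fun w => ?_⟩
  rw [← mul_smul, hconj, mul_smul, hm]

theorem tendsto_vadd_atImInfty_pb (m : ℝ) :
    Tendsto (fun w : ℍ => (m +ᵥ w : ℍ)) atImInfty atImInfty := by
  rw [atImInfty, tendsto_comap_iff]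
  have : (im ∘ fun w : ℍ => (m +ᵥ w : ℍ)) = im := by
    funext w
    simp [vadd_im]
  rw [this]
  exact tendsto_comap

section

variable {N : ℕ} [NeZero N]

/-- **(P2)** the period of an element of `Γ₀(N)` with `trace ^ 2 = 4` vanishes. -/
theorem periodMap_eq_zero_of_trace (f : CuspForm (Gamma0 N) 2) (γ : Gamma0 N)
    (h : ((γ : SL(2, ℤ)) : Matrix (Fin 2) (Fin 2) ℤ).trace ^ 2 = 4) :
    ModularCurve.periodMap N f (Additive.ofMul γ) = 0 := by
  obtain ⟨δ, m, hm⟩ := exists_smul_eq_vadd (γ : SL(2, ℤ)) h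
  obtain ⟨Gδ, c, hG0, hG⟩ := exists_primF_translate f δ
  -- the period, evaluated at `δ • w`
  have hper : ∀ w : ℍ, ModularCurve.periodMap N f (Additive.ofMul γ) =
      Gδ ((m : ℝ) +ᵥ w) - Gδ w := by
    intro w
    rw [periodMap_apply f γ (δ • w), hm w, hG, hG]
    ring
  have hlim : Tendsto (fun w : ℍ => Gδ ((m : ℝ) +ᵥ w) - Gδ w) atImInfty (𝓝 (0 - 0)) :=
    (hG0.comp (tendsto_vadd_atImInfty_pb m)).sub hG0
  rw [sub_zero] at hlim
  have hconst : Tendsto (fun _ : ℍ => ModularCurve.periodMap N f (Additive.ofMul γ)) atImInfty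
      (𝓝 0) := hlim.congr fun w => (hper w).symm
  exact tendsto_nhds_unique tendsto_const_nhds hconst

theorem periodMap_mem_parabolicHoms_pb (f : CuspForm (Gamma0 N) 2) :
    ModularCurve.periodMap N f ∈ ModularCurve.Period.parabolicHoms ℂ (Gamma0 N) ℂ := by
  rw [ModularCurve.Period.mem_parabolicHoms_iff]
  intro γ hγ
  exact periodMap_eq_zero_of_trace f γ hγ

/-- **(P3)** -/
theorem range_periodHomPair_le :
    LinearMap.range (ModularCurve.periodHomPair N) ≤
      ModularCurve.Period.parabolicHoms ℂ (Gamma0 N) ℂ := by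
  rintro _ ⟨⟨f, g⟩, rfl⟩
  rw [periodHomPair_apply]
  have hf := periodMap_mem_parabolicHoms_pb f
  have hg := periodMap_mem_parabolicHoms_pb g
  exact Submodule.add_mem _
    (Submodule.add_mem _ hf (ModularCurve.Period.charInvolution_mem_parabolicHoms N ℂ ℂ hf))
    (Submodule.sub_mem _ hg (ModularCurve.Period.charInvolution_mem_parabolicHoms N ℂ ℂ hg))

/-- Translates of the primitive are `N`-periodic. -/
theorem primF_translate_vadd (f : CuspForm (Gamma0 N) 2) (δ : SL(2, ℤ)) (z : ℍ) :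
    primF f (δ • (((N : ℕ) : ℝ) +ᵥ z : ℍ)) = primF f (δ • z) := by
  -- `δ T^N δ⁻¹ ∈ Γ(N) ≤ Γ₀(N)` is parabolic
  have hT : ModularGroup.T ^ (N : ℤ) ∈ Gamma N := by
    have := ModularGroup_T_pow_mem_Gamma (N : ℤ) (N : ℤ) dvd_rfl
    simpa using this
  have hconj : δ * ModularGroup.T ^ (N : ℤ) * δ⁻¹ ∈ Gamma N :=
    (Gamma_normal N).conj_mem _ hT δ
  have hmem0 : δ * ModularGroup.T ^ (N : ℤ) * δ⁻¹ ∈ Gamma0 N := by
    rw [Gamma_mem] at hconj
    rw [Gamma0_mem]
    exact hconj.2.2.1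
  have htr : ((δ * ModularGroup.T ^ (N : ℤ) * δ⁻¹ : SL(2, ℤ)) :
      Matrix (Fin 2) (Fin 2) ℤ).trace ^ 2 = 4 := by
    have e : ((δ * ModularGroup.T ^ (N : ℤ) * δ⁻¹ : SL(2, ℤ)) : Matrix (Fin 2) (Fin 2) ℤ).trace =
        ((ModularGroup.T ^ (N : ℤ) : SL(2, ℤ)) : Matrix (Fin 2) (Fin 2) ℤ).trace := by
      rw [Matrix.SpecialLinearGroup.coe_mul, Matrix.SpecialLinearGroup.coe_mul,
        Matrix.trace_mul_comm, ← Matrix.mul_assoc, ← Matrix.SpecialLinearGroup.coe_mul,
        inv_mul_cancel, Matrix.SpecialLinearGroup.coe_one, Matrix.one_mul]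
    rw [e, ModularGroup.coe_T_zpow, Matrix.trace_fin_two_of]
    norm_num
  have h0 := periodMap_eq_zero_of_trace f ⟨_, hmem0⟩ htr
  rw [periodMap_apply f ⟨_, hmem0⟩ (δ • z)] at h0
  have hsm : (δ * ModularGroup.T ^ (N : ℤ) * δ⁻¹) • (δ • z) = δ • (((N : ℕ) : ℝ) +ᵥ z : ℍ) := by
    rw [← mul_smul, inv_mul_cancel_right, mul_smul]
    congr 1
    ext
    rw [ModularGroup.coe_T_zpow_smul_eq, coe_vadd]
    push_cast
    ring
  change primF f ((δ * ModularGroup.T ^ (N : ℤ) * δ⁻¹) • (δ • z)) - primF f (δ • z) = 0 at h0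
  rw [hsm] at h0
  exact sub_eq_zero.mp h0

theorem isBoundedAtImInfty_primF_translate (f : CuspForm (Gamma0 N) 2) (δ : SL(2, ℤ)) :
    IsBoundedAtImInfty (fun z : ℍ => primF f (δ • z)) := by
  obtain ⟨Gδ, c, hG0, hG⟩ := exists_primF_translate f δ
  have : (fun z : ℍ => primF f (δ • z)) = Gδ + fun _ => c := by
    funext z
    rw [hG z]; rfl
  rw [this]
  exact hG0.isBoundedAtImInfty.add (Filter.const_boundedAtFilter _ c)

theorem tendsto_primF_translate (f : CuspForm (Gamma0 N) 2) (δ : SL(2, ℤ)) :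
    ∃ L : ℂ, Tendsto (fun z : ℍ => primF f (δ • z)) atImInfty (𝓝 L) :=
  (hasEquivariantPrimitive_primF f).2.2.2 δ

end

end

end Fermat.Agent.S21
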