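import Fermat.Agent.S21.DimCount
import Fermat.Agent.S21.Injective
import Fermat.Agent.S21.Parab

set_option autoImplicit false

/-!
# S21: unconditional consequences of the dimension count

* `finrank_cuspForm_le_genus`: `dim S₂(Γ₀(N)) ≤ genusFormula N` (the upper half of S20, no
  Riemann–Roch);
* `eichlerShimura_of_S20`: the S21 statement from the S20 statement.
-/

namespace Fermat.Agent.S21

open Module CongruenceSubgroup ModularCurve ModularCurve.Period

/-- **Upper half of the dimension formula**, unconditionally. -/
theorem finrank_cuspForm_le_genus (N : ℕ) [NeZero N] :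
    (finrank ℂ (CuspForm (Gamma0 N) 2) : ℚ) ≤ genusFormula N :=
  finrank_cuspForm_le_genusFormula N (periodHomPair_injective N) range_periodHomPair_le

/-- `S₂(Γ₀(N))` is finite-dimensional (via the period embedding). -/
theorem finite_cuspForm_two (N : ℕ) [NeZero N] : Module.Finite ℂ (CuspForm (Gamma0 N) 2) :=
  dimCount_finite_cuspForm N (periodHomPair_injective N) range_periodHomPair_le

/-- **Eichler–Shimura from the dimension formula S20.** -/
theorem eichlerShimura_of_S20 (N : ℕ) [NeZero N]
    (h20 : (finrank ℂ (CuspForm (Gamma0 N) 2) : ℚ) = genusFormula N) :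
    Function.Injective (periodHomPair N) ∧
      LinearMap.range (periodHomPair N) = parabolicHoms ℂ (Gamma0 N) ℂ :=
  eichlerShimura_of_finrank N (periodHomPair_injective N) range_periodHomPair_le h20

/-- For S20 it is enough to prove the lower bound. -/
theorem finrank_cuspForm_eq_of_ge (N : ℕ) [NeZero N]
    (hge : genusFormula N ≤ (finrank ℂ (CuspForm (Gamma0 N) 2) : ℚ)) :
    (finrank ℂ (CuspForm (Gamma0 N) 2) : ℚ) = genusFormula N :=
  le_antisymm (finrank_cuspForm_le_genus N) hge

end Fermat.Agent.S21
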