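import Mathlib
import Fermat.Agent.S24.PermOrbits

set_option autoImplicit false
set_option linter.unusedSectionVars false
set_option linter.style.haveILetI false

/-!
# S21, chunk (D-alg): a dimension bound for "parabolic cocycle pairs" on a permutation module
-/

namespace Fermat.Agent.S21

open Equiv Equiv.Perm Module
open Fermat.Agent.S24 (orb)

noncomputable section

variable {X : Type*} [Fintype X] [DecidableEq X]

/-- The norm operator `f ↦ ∑_{i<k} f ∘ σ^i`. -/
def normOp (σ : Perm X) (k : ℕ) : (X → ℂ) →ₗ[ℂ] (X → ℂ) where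
  toFun f x := ∑ i ∈ Finset.range k, f ((σ ^ i) x)
  map_add' f g := by
    funext x
    simp [Finset.sum_add_distrib]
  map_smul' c f := by
    funext x
    simp [Finset.mul_sum]

theorem normOp_apply (σ : Perm X) (k : ℕ) (f : X → ℂ) (x : X) :
    normOp σ k f x = ∑ i ∈ Finset.range k, f ((σ ^ i) x) := rfl

/-- The `σ`-invariant functions. -/
def fixedSub (σ : Perm X) : Submodule ℂ (X → ℂ) where
  carrier := {f | ∀ x, f (σ x) = f x}
  zero_mem' := fun _ => rfl
  add_mem' := by
    intro f g hf hg x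
    simp [hf x, hg x]
  smul_mem' := by
    intro c f hf x
    simp [hf x]

theorem mem_fixedSub {σ : Perm X} {f : X → ℂ} : f ∈ fixedSub σ ↔ ∀ x, f (σ x) = f x := Iff.rfl

theorem fixedSub_pow {σ : Perm X} {f : X → ℂ} (hf : f ∈ fixedSub σ) (n : ℕ) (x : X) :
    f ((σ ^ n) x) = f x := by
  induction n with
  | zero => simp
  | succ n ih => rw [pow_succ', Perm.mul_apply, hf, ih]

theorem fixedSub_zpow {σ : Perm X} {f : X → ℂ} (hf : f ∈ fixedSub σ) (n : ℤ) (x : X) :
    f ((σ ^ n) x) = f x := by
  cases n with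
  | ofNat n => simpa using fixedSub_pow hf n x
  | negSucc n =>
    rw [zpow_negSucc]
    have h := fixedSub_pow hf (n + 1) ((σ ^ (n + 1))⁻¹ x)
    rw [← Perm.mul_apply, mul_inv_cancel, Perm.one_apply] at h
    exact h.symm

theorem fixedSub_sameCycle {σ : Perm X} {f : X → ℂ} (hf : f ∈ fixedSub σ) {x y : X}
    (h : SameCycle σ x y) : f x = f y := by
  obtain ⟨i, rfl⟩ := h
  exact (fixedSub_zpow hf i x).symm

/-- Invariant functions are functions on the set of cycles. -/
def fixedSubEquiv (σ : Perm X) :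
    fixedSub σ ≃ₗ[ℂ] (Quotient (SameCycle.setoid σ) → ℂ) where
  toFun f := fun q => Quotient.liftOn q f.1 (fun _ _ h => fixedSub_sameCycle f.2 h)
  map_add' f g := by
    funext q
    induction q using Quotient.inductionOn with | _ x => rfl
  map_smul' c f := by
    funext q
    induction q using Quotient.inductionOn with | _ x => rfl
  invFun g := ⟨fun x => g (Quotient.mk _ x), fun x => by
    have h : SameCycle σ (σ x) x := ⟨-1, by simp⟩
    exact congrArg g (Quotient.sound h)⟩
  left_inv f := by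
    apply Subtype.ext
    funext x
    rfl
  right_inv g := by
    funext q
    induction q using Quotient.inductionOn with | _ x => rfl

theorem finrank_fixedSub (σ : Perm X) : finrank ℂ (fixedSub σ) = orb σ := by
  classical
  haveI : Fintype (Quotient (SameCycle.setoid σ)) := Fintype.ofFinite _
  rw [LinearEquiv.finrank_eq (fixedSubEquiv σ), Module.finrank_fintype_fun_eq_card, orb,
    Nat.card_eq_fintype_card]

theorem normOp_of_mem_fixedSub {σ : Perm X} (k : ℕ) {f : X → ℂ} (hf : f ∈ fixedSub σ) :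
    normOp σ k f = (k : ℂ) • f := by
  funext x
  rw [normOp_apply]
  simp [fixedSub_pow hf]

theorem fixedSub_le_range_normOp (σ : Perm X) {k : ℕ} (hk : 0 < k) :
    fixedSub σ ≤ LinearMap.range (normOp σ k) := by
  intro f hf
  refine ⟨(k : ℂ)⁻¹ • f, ?_⟩
  rw [map_smul, normOp_of_mem_fixedSub k hf, smul_smul, inv_mul_cancel₀, one_smul]
  exact_mod_cast hk.ne'

/-- Upper bound for the kernel of the norm operator. -/
theorem finrank_ker_normOp_add_orb_le (σ : Perm X) {k : ℕ} (hk : 0 < k) :
    finrank ℂ (LinearMap.ker (normOp σ k)) + orb σ ≤ Fintype.card X := by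
  have h1 := (normOp σ k).finrank_range_add_finrank_ker
  rw [Module.finrank_fintype_fun_eq_card] at h1
  have h2 : finrank ℂ (fixedSub σ) ≤ finrank ℂ (LinearMap.range (normOp σ k)) :=
    Submodule.finrank_mono (fixedSub_le_range_normOp σ hk)
  rw [finrank_fixedSub] at h2
  omega

/-- General rank-nullity inequality for the image of a submodule. -/
theorem parAlg_finrank_le_map_add_ker {V : Type*} [AddCommGroup V] [Module ℂ V]
    [FiniteDimensional ℂ V] (W : Submodule ℂ V) (N : V →ₗ[ℂ] V) :
    finrank ℂ W ≤ finrank ℂ (W.map N) + finrank ℂ (LinearMap.ker N) := by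
  have h1 := (N.domRestrict W).finrank_range_add_finrank_ker
  have h2 : LinearMap.range (N.domRestrict W) = W.map N := by
    ext y
    constructor
    · rintro ⟨x, rfl⟩
      exact ⟨x.1, x.2, rfl⟩
    · rintro ⟨x, hx, rfl⟩
      exact ⟨⟨x, hx⟩, rfl⟩
  have h3 : finrank ℂ (LinearMap.ker (N.domRestrict W)) ≤ finrank ℂ (LinearMap.ker N) := by
    let ι : LinearMap.ker (N.domRestrict W) →ₗ[ℂ] LinearMap.ker N :=
      { toFun := fun x => ⟨x.1.1, by
          have := x.2
          rw [LinearMap.mem_ker] at this ⊢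
          exact this⟩
        map_add' := fun _ _ => rfl
        map_smul' := fun _ _ => rfl }
    refine LinearMap.finrank_le_finrank_of_injective (f := ι) ?_
    intro x y hxy
    apply Subtype.ext
    apply Subtype.ext
    exact congrArg (fun z : LinearMap.ker N => (z : V)) hxy
  rw [h2] at h1
  omega

/-- The sum functional. -/
def sumFn : (X → ℂ) →ₗ[ℂ] ℂ where
  toFun f := ∑ x, f x
  map_add' f g := by simp [Finset.sum_add_distrib]
  map_smul' c f := by simp [Finset.mul_sum]

theorem sumFn_apply (f : X → ℂ) : sumFn f = ∑ x, f x := rfl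

theorem parAlg_card_le_finrank_ker_sumFn :
    Fintype.card X ≤ finrank ℂ (LinearMap.ker (sumFn (X := X))) + 1 := by
  have h1 := (sumFn (X := X)).finrank_range_add_finrank_ker
  have h2 : finrank ℂ (LinearMap.range (sumFn (X := X))) ≤ 1 := by
    calc finrank ℂ (LinearMap.range (sumFn (X := X))) ≤ finrank ℂ ℂ := Submodule.finrank_le _
      _ = 1 := Module.finrank_self ℂ
  rw [Module.finrank_fintype_fun_eq_card] at h1
  omega

/-- A submodule containing all differences of basis vectors contains the sum-zero functions. -/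
theorem parAlg_ker_sumFn_le {W : Submodule ℂ (X → ℂ)}
    (hW : ∀ x y : X, (Pi.single x (1 : ℂ) - Pi.single y 1 : X → ℂ) ∈ W) :
    LinearMap.ker (sumFn (X := X)) ≤ W := by
  intro f hf
  rw [LinearMap.mem_ker, sumFn_apply] at hf
  rcases isEmpty_or_nonempty X with hX | ⟨⟨x0⟩⟩
  · have : f = 0 := by
      funext x
      exact (hX.false x).elim
    rw [this]
    exact W.zero_mem
  · have hdec : f = ∑ x, f x • (Pi.single x (1 : ℂ) - Pi.single x0 1 : X → ℂ) := by
      funext y
      simp only [Finset.sum_apply, Pi.smul_apply, Pi.sub_apply, smul_eq_mul, mul_sub,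
        Finset.sum_sub_distrib, Pi.single_apply, mul_ite, mul_one, mul_zero]
      rw [Finset.sum_ite_eq Finset.univ y f, if_pos (Finset.mem_univ y)]
      by_cases hy : y = x0
      · subst hy
        simp [hf]
      · simp [hy]
    rw [hdec]
    exact W.sum_mem fun x _ => W.smul_mem _ (hW x x0)

/-- Differences `e_x - e_{g x}` for `g` in a generating set give all differences. -/
theorem parAlg_single_sub_single_mem {W : Submodule ℂ (X → ℂ)} {S : Set (Perm X)}
    (hS : ∀ g ∈ S, ∀ x : X, (Pi.single x (1 : ℂ) - Pi.single (g x) 1 : X → ℂ) ∈ W)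
    (htrans : ∀ x y : X, ∃ g ∈ Subgroup.closure S, g x = y) (x y : X) :
    (Pi.single x (1 : ℂ) - Pi.single y 1 : X → ℂ) ∈ W := by
  let H : Subgroup (Perm X) :=
    { carrier := {g | ∀ x : X, (Pi.single x (1 : ℂ) - Pi.single (g x) 1 : X → ℂ) ∈ W}
      one_mem' := fun x => by simp
      mul_mem' := by
        intro g h hg hh x
        have h1 := hh x
        have h2 := hg (h x)
        have := W.add_mem h1 h2
        simpa [Perm.mul_apply] using this
      inv_mem' := by
        intro g hg x
        have h1 := hg (g⁻¹ x)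
        have := W.neg_mem h1
        simpa using this }
  have hle : Subgroup.closure S ≤ H := (Subgroup.closure_le H).mpr fun g hg => hS g hg
  obtain ⟨g, hg, rfl⟩ := htrans x y
  exact hle hg x

theorem normOp_comp_perm {σ : Perm X} {k : ℕ} (hσ : σ ^ k = 1) (f : X → ℂ) :
    normOp σ k (fun y => f (σ y)) = normOp σ k f := by
  funext y
  rw [normOp_apply, normOp_apply]
  have h1 : ∑ i ∈ Finset.range k, f (σ ((σ ^ i) y)) = ∑ i ∈ Finset.range k, f ((σ ^ (i + 1)) y) := by
    refine Finset.sum_congr rfl fun i _ => ?_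
    rw [pow_succ', Perm.mul_apply]
  rw [h1]
  have h2 := Finset.sum_range_succ' (fun i => f ((σ ^ i) y)) k
  have h3 := Finset.sum_range_succ (fun i => f ((σ ^ i) y)) k
  rw [h2] at h3
  simp only [pow_zero, Perm.one_apply, hσ] at h3
  exact add_right_cancel h3

theorem single_sub_single_mem_ker_normOp {σ : Perm X} {k : ℕ} (hσ : σ ^ k = 1) (x : X) :
    (Pi.single x (1 : ℂ) - Pi.single (σ x) 1 : X → ℂ) ∈ LinearMap.ker (normOp σ k) := by
  rw [LinearMap.mem_ker, map_sub, sub_eq_zero]
  have h : (Pi.single x (1 : ℂ) : X → ℂ) = fun y => (Pi.single (σ x) (1 : ℂ) : X → ℂ) (σ y) := by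
    funext y
    simp [Pi.single_apply]
  rw [h, normOp_comp_perm hσ]

/-- The space of "parabolic cocycle pairs". -/
def parabolicPairs (s u t : Perm X) (m : ℕ) : Submodule ℂ ((X → ℂ) × (X → ℂ)) where
  carrier := {p | normOp s 2 p.1 = 0 ∧ normOp u 3 p.2 = 0 ∧ normOp t m p.1 = normOp t m p.2}
  zero_mem' := by simp
  add_mem' := by
    rintro p q ⟨h1, h2, h3⟩ ⟨h1', h2', h3'⟩
    refine ⟨?_, ?_, ?_⟩
    · simp [map_add, h1, h1']
    · simp [map_add, h2, h2']
    · simp [map_add, h3, h3']
  smul_mem' := by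
    rintro c p ⟨h1, h2, h3⟩
    refine ⟨?_, ?_, ?_⟩
    · simp [map_smul, h1]
    · simp [map_smul, h2]
    · simp [map_smul, h3]

theorem mem_parabolicPairs {s u t : Perm X} {m : ℕ} {p : (X → ℂ) × (X → ℂ)} :
    p ∈ parabolicPairs s u t m ↔
      normOp s 2 p.1 = 0 ∧ normOp u 3 p.2 = 0 ∧ normOp t m p.1 = normOp t m p.2 := Iff.rfl

/-- **Dimension bound** for parabolic cocycle pairs. -/
theorem finrank_parabolicPairs_le (s u t : Perm X) (m : ℕ) (hm : 0 < m)
    (hs : s ^ 2 = 1) (hu : u ^ 3 = 1) (hsut : u = s * t)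
    (htrans : ∀ x y : X, ∃ g ∈ Subgroup.closure ({s, t} : Set (Perm X)), g x = y) :
    finrank ℂ (parabolicPairs s u t m) + orb s + orb u + orb t ≤ 2 * Fintype.card X + 1 := by
  set Ks := LinearMap.ker (normOp s 2) with hKs
  set Ku := LinearMap.ker (normOp u 3) with hKu
  set Kt := LinearMap.ker (normOp t m) with hKt
  have bs := finrank_ker_normOp_add_orb_le s (k := 2) (by norm_num)
  have bu := finrank_ker_normOp_add_orb_le u (k := 3) (by norm_num)
  have bt := finrank_ker_normOp_add_orb_le t hm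
  -- the map Θ
  let Θ : (Ks × Ku) →ₗ[ℂ] (X → ℂ) :=
    (normOp t m) ∘ₗ (Ku.subtype ∘ₗ LinearMap.snd ℂ Ks Ku - Ks.subtype ∘ₗ LinearMap.fst ℂ Ks Ku)
  have hΘ : ∀ p : Ks × Ku, Θ p = normOp t m ((p.2 : X → ℂ) - (p.1 : X → ℂ)) := fun p => rfl
  -- (i) parabolicPairs embeds in ker Θ
  have h_i : finrank ℂ (parabolicPairs s u t m) ≤ finrank ℂ (LinearMap.ker Θ) := by
    let ι : parabolicPairs s u t m →ₗ[ℂ] LinearMap.ker Θ :=
      { toFun := fun p => ⟨(⟨p.1.1, LinearMap.mem_ker.mpr p.2.1⟩, ⟨p.1.2, LinearMap.mem_ker.mpr p.2.2.1⟩), by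
          rw [LinearMap.mem_ker, hΘ]
          simp only [map_sub]
          rw [p.2.2.2, sub_self]⟩
        map_add' := fun _ _ => rfl
        map_smul' := fun _ _ => rfl }
    refine LinearMap.finrank_le_finrank_of_injective (f := ι) ?_
    intro p q hpq
    have h := congrArg (fun z : LinearMap.ker Θ => ((z : Ks × Ku).1.1, (z : Ks × Ku).2.1)) hpq
    apply Subtype.ext
    exact h
  -- (ii) rank-nullity for Θ
  have h_ii := Θ.finrank_range_add_finrank_ker
  rw [Module.finrank_prod] at h_ii
  -- (iii) the range of Θ contains the image of the sum-zero functions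
  have hW : ∀ x y : X, (Pi.single x (1 : ℂ) - Pi.single y 1 : X → ℂ) ∈ Ks ⊔ Ku := by
    refine parAlg_single_sub_single_mem (S := {s, t}) ?_ htrans
    intro g hg x
    rcases hg with rfl | rfl
    · exact Submodule.mem_sup_left (single_sub_single_mem_ker_normOp hs x)
    · -- e_x - e_{t x} = (e_x - e_{s⁻¹ x}) + (e_{s⁻¹ x} - e_{t x}), and t x = s⁻¹ u x
      have ht : g = s⁻¹ * u := by rw [hsut, inv_mul_cancel_left]
      have h1 : (Pi.single (u x) (1 : ℂ) - Pi.single (g x) 1 : X → ℂ) ∈ Ks := by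
        have := single_sub_single_mem_ker_normOp hs (g x)
        have e : s (g x) = u x := by rw [hsut, Perm.mul_apply]
        rw [e] at this
        have := Ks.neg_mem this
        simpa using this
      have h2 : (Pi.single x (1 : ℂ) - Pi.single (u x) 1 : X → ℂ) ∈ Ku :=
        single_sub_single_mem_ker_normOp hu x
      have := Submodule.add_mem_sup h1 h2
      have e2 : (Pi.single (u x) (1 : ℂ) - Pi.single (g x) 1 : X → ℂ)
          + (Pi.single x (1 : ℂ) - Pi.single (u x) 1 : X → ℂ)
          = (Pi.single x (1 : ℂ) - Pi.single (g x) 1 : X → ℂ) := by abel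
      rw [e2] at this
      exact this
  have h_iii : (LinearMap.ker (sumFn (X := X))).map (normOp t m) ≤ LinearMap.range Θ := by
    rintro _ ⟨f, hf, rfl⟩
    have hfW := parAlg_ker_sumFn_le hW hf
    obtain ⟨a, ha, b, hb, rfl⟩ := Submodule.mem_sup.mp hfW
    refine ⟨(⟨-a, Ks.neg_mem ha⟩, ⟨b, hb⟩), ?_⟩
    rw [hΘ]
    congr 1
    simp only []
    abel
  have h_iii' := Submodule.finrank_mono h_iii
  -- (iv)
  have h_iv := parAlg_finrank_le_map_add_ker (LinearMap.ker (sumFn (X := X))) (normOp t m)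
  -- (v)
  have h_v := parAlg_card_le_finrank_ker_sumFn (X := X)
  have e1 : finrank ℂ Ks = finrank ℂ (LinearMap.ker (normOp s 2)) := rfl
  have e2 : finrank ℂ Ku = finrank ℂ (LinearMap.ker (normOp u 3)) := rfl
  have e3 : finrank ℂ Kt = finrank ℂ (LinearMap.ker (normOp t m)) := rfl
  omega

end

end Fermat.Agent.S21
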