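import Mathlib
import Fermat.Agent.S21.ParabolicAlg

set_option autoImplicit false
set_option linter.unusedSectionVars false
set_option linter.style.haveILetI false

/-!
# S21, chunk (D-shapiro): homomorphisms of a point stabiliser as cocycles on a permutation module
-/

namespace Fermat.Agent.S21

open Equiv Equiv.Perm Module

noncomputable section

variable {G : Type*} [Group G] {X : Type*} [Fintype X] [DecidableEq X] [MulAction G X]

/-- Data for the Shapiro construction: a base point, its stabiliser and a section. -/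
structure ShapiroData (G : Type*) [Group G] (X : Type*) [MulAction G X] where
  x0 : X
  Γ : Subgroup G
  mem_iff : ∀ g : G, g ∈ Γ ↔ g • x0 = x0
  r : X → G
  r_smul : ∀ x, r x • x0 = x

namespace ShapiroData

variable (D : ShapiroData G X)

/-- `κ(g, x) = r(g x)⁻¹ g r(x) ∈ Γ`. -/
def kap (g : G) (x : X) : D.Γ :=
  ⟨(D.r (g • x))⁻¹ * g * D.r x, by
    rw [D.mem_iff, mul_smul, mul_smul, D.r_smul, inv_smul_eq_iff, D.r_smul]⟩

theorem kap_mul (g h : G) (x : X) : D.kap (g * h) x = D.kap g (h • x) * D.kap h x := by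
  apply Subtype.ext
  simp only [kap, Subgroup.coe_mul, mul_smul]
  group

/-- The cocycle attached to `φ` and `v`. -/
def coc (φ : Additive D.Γ →+ ℂ) (v : X → ℂ) (g : G) (x : X) : ℂ :=
  φ (Additive.ofMul (D.kap g x)) + v (g • x) - v x

theorem coc_mul (φ : Additive D.Γ →+ ℂ) (v : X → ℂ) (g h : G) (x : X) :
    D.coc φ v (g * h) x = D.coc φ v g (h • x) + D.coc φ v h x := by
  simp only [coc, kap_mul, ofMul_mul, map_add, mul_smul]
  ring

theorem coc_one (φ : Additive D.Γ →+ ℂ) (v : X → ℂ) (x : X) : D.coc φ v 1 x = 0 := by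
  have h := D.coc_mul φ v 1 1 x
  rw [one_mul, one_smul] at h
  exact (add_eq_left.mp h.symm)

theorem coc_inv (φ : Additive D.Γ →+ ℂ) (v : X → ℂ) (g : G) (x : X) :
    D.coc φ v g⁻¹ (g • x) = - D.coc φ v g x := by
  have h := D.coc_mul φ v g⁻¹ g x
  rw [inv_mul_cancel, coc_one] at h
  exact eq_neg_of_add_eq_zero_left h.symm

theorem coc_pow (φ : Additive D.Γ →+ ℂ) (v : X → ℂ) (g : G) (k : ℕ) (x : X) :
    D.coc φ v (g ^ k) x = ∑ i ∈ Finset.range k, D.coc φ v g (g ^ i • x) := by
  induction k with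
  | zero => simp [coc_one]
  | succ k ih => rw [pow_succ', coc_mul, Finset.sum_range_succ, ih, add_comm]

theorem coc_add (φ ψ : Additive D.Γ →+ ℂ) (v w : X → ℂ) (g : G) (x : X) :
    D.coc (φ + ψ) (v + w) g x = D.coc φ v g x + D.coc ψ w g x := by
  simp only [coc, AddMonoidHom.add_apply, Pi.add_apply]
  ring

theorem coc_smul (c : ℂ) (φ : Additive D.Γ →+ ℂ) (v : X → ℂ) (g : G) (x : X) :
    D.coc (c • φ) (c • v) g x = c * D.coc φ v g x := by
  simp only [coc, AddMonoidHom.smul_apply, Pi.smul_apply, smul_eq_mul]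
  ring

/-- If the cocycle vanishes on a generating set, it vanishes. -/
theorem coc_eq_zero_of_closure (φ : Additive D.Γ →+ ℂ) (v : X → ℂ) (S : Set G)
    (hS : Subgroup.closure S = ⊤) (h : ∀ g ∈ S, ∀ x, D.coc φ v g x = 0) (g : G) (x : X) :
    D.coc φ v g x = 0 := by
  let H : Subgroup G :=
    { carrier := {g | ∀ x, D.coc φ v g x = 0}
      one_mem' := fun x => D.coc_one φ v x
      mul_mem' := by
        intro a b ha hb x
        rw [coc_mul, ha, hb, add_zero]
      inv_mem' := by
        intro a ha x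
        have := D.coc_inv φ v a (a⁻¹ • x)
        rw [smul_inv_smul] at this
        rw [this, ha, neg_zero] }
  have hle : Subgroup.closure S ≤ H := (Subgroup.closure_le H).mpr fun g hg => h g hg
  rw [hS] at hle
  exact hle (Subgroup.mem_top g) x

/-- If the cocycle of `(φ, v)` vanishes identically then `φ = 0`. -/
theorem eq_zero_of_coc_eq_zero (φ : Additive D.Γ →+ ℂ) (v : X → ℂ)
    (h : ∀ g x, D.coc φ v g x = 0) : φ = 0 := by
  have hr0 : D.r D.x0 ∈ D.Γ := by rw [D.mem_iff, D.r_smul]
  refine AddMonoidHom.ext fun γ' => ?_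
  obtain ⟨γ, rfl⟩ := Additive.ofMul.surjective γ'
  have h1 := h (γ : G) D.x0
  have hγ : (γ : G) • D.x0 = D.x0 := (D.mem_iff _).mp γ.2
  have hk : D.kap (γ : G) D.x0 = (⟨D.r D.x0, hr0⟩ : D.Γ)⁻¹ * γ * ⟨D.r D.x0, hr0⟩ := by
    apply Subtype.ext
    simp only [kap, hγ, Subgroup.coe_mul, Subgroup.coe_inv]
  rw [coc, hγ, add_sub_cancel_right, hk] at h1
  simp only [ofMul_mul, ofMul_inv, map_add, map_neg] at h1
  rw [AddMonoidHom.zero_apply]
  linear_combination h1

theorem const_of_coc_eq_zero (htrans : ∀ x : X, ∃ g : G, g • D.x0 = x)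
    (φ : Additive D.Γ →+ ℂ) (v : X → ℂ)
    (h : ∀ g x, D.coc φ v g x = 0) (x : X) : v x = v D.x0 := by
  have hφ := D.eq_zero_of_coc_eq_zero φ v h
  obtain ⟨g, rfl⟩ := htrans x
  have := h g D.x0
  rw [coc, hφ, AddMonoidHom.zero_apply, zero_add, sub_eq_zero] at this
  exact this

/-- The linear map `(φ, v) ↦ (c(s), c(u))`. -/
def Psi (s u : G) (P : Submodule ℂ (Additive D.Γ →+ ℂ)) :
    (P × (X → ℂ)) →ₗ[ℂ] ((X → ℂ) × (X → ℂ)) where
  toFun p := (fun x => D.coc p.1.1 p.2 s x, fun x => D.coc p.1.1 p.2 u x)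
  map_add' p q := by
    refine Prod.ext ?_ ?_ <;> funext x <;>
      simp only [Prod.fst_add, Prod.snd_add, Submodule.coe_add, coc_add, Pi.add_apply]
  map_smul' c p := by
    refine Prod.ext ?_ ?_ <;> funext x <;>
      simp only [Prod.smul_fst, Prod.smul_snd, Submodule.coe_smul, coc_smul, Pi.smul_apply,
        smul_eq_mul, RingHom.id_apply]

theorem Psi_apply (s u : G) (P : Submodule ℂ (Additive D.Γ →+ ℂ)) (p : P × (X → ℂ)) :
    D.Psi s u P p = (fun x => D.coc p.1.1 p.2 s x, fun x => D.coc p.1.1 p.2 u x) := rfl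

theorem toPerm_pow_apply (g : G) (i : ℕ) (x : X) :
    ((MulAction.toPerm g : Perm X) ^ i) x = g ^ i • x := by
  have : (MulAction.toPerm g : Perm X) ^ i = MulAction.toPerm (g ^ i) :=
    (map_pow (MulAction.toPermHom G X) g i).symm
  rw [this]
  rfl

/-- **Shapiro bound**: the dimension of a space `P` of homomorphisms of the stabiliser killing the
central element `z = s² = (st)³` and the conjugates of `t^m` is controlled by the space of
parabolic cocycle pairs. -/
theorem finrank_add_card_le (htrans : ∀ x : X, ∃ g : G, g • D.x0 = x)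
    (s t : G) (hgen : Subgroup.closure ({s, t} : Set G) = ⊤)
    (z : G) (hz : ∀ g : G, g * z = z * g) (hzΓ : z ∈ D.Γ) (hs : s ^ 2 = z) (hu : (s * t) ^ 3 = z)
    (m : ℕ) (htm : ∀ x : X, t ^ m • x = x)
    (P : Submodule ℂ (Additive D.Γ →+ ℂ))
    (hPz : ∀ φ ∈ P, φ (Additive.ofMul ⟨z, hzΓ⟩) = 0)
    (hPt : ∀ φ ∈ P, ∀ (g : G) (h : g⁻¹ * t ^ m * g ∈ D.Γ),
      φ (Additive.ofMul ⟨g⁻¹ * t ^ m * g, h⟩) = 0) :
    Module.Finite ℂ P ∧ finrank ℂ P + Fintype.card X ≤
      1 + finrank ℂ (parabolicPairs (MulAction.toPerm s) (MulAction.toPerm (s * t))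
        (MulAction.toPerm t : Perm X) m) := by
  set u := s * t with hu_def
  -- z acts trivially
  have hzX : ∀ x : X, z • x = x := by
    intro x
    conv_lhs => rw [← D.r_smul x]
    rw [← mul_smul, ← hz, mul_smul, (D.mem_iff z).mp hzΓ, D.r_smul]
  -- the cocycle at z
  have hcz : ∀ φ ∈ P, ∀ (v : X → ℂ) (x : X), D.coc φ v z x = 0 := by
    intro φ hφ v x
    have hk : D.kap z x = ⟨z, hzΓ⟩ := by
      apply Subtype.ext
      simp only [kap, hzX]
      rw [mul_assoc, ← hz, inv_mul_cancel_left]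
    rw [coc, hk, hPz φ hφ, hzX, zero_add, sub_self]
  -- the cocycle at t^m
  have hctm : ∀ φ ∈ P, ∀ (v : X → ℂ) (x : X), D.coc φ v (t ^ m) x = 0 := by
    intro φ hφ v x
    have hmem : (D.r x)⁻¹ * t ^ m * D.r x ∈ D.Γ := by
      have := (D.kap (t ^ m) x).2
      simpa only [kap, htm] using this
    have hk : D.kap (t ^ m) x = ⟨(D.r x)⁻¹ * t ^ m * D.r x, hmem⟩ := by
      apply Subtype.ext
      simp only [kap, htm]
    rw [coc, hk, hPt φ hφ _ hmem, htm, zero_add, sub_self]
  -- the image lies in the parabolic pairs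
  have himage : LinearMap.range (D.Psi s u P) ≤
      parabolicPairs (MulAction.toPerm s) (MulAction.toPerm u) (MulAction.toPerm t : Perm X) m := by
    rintro _ ⟨p, rfl⟩
    obtain ⟨⟨φ, hφ⟩, v⟩ := p
    rw [mem_parabolicPairs, Psi_apply]
    simp only []
    refine ⟨?_, ?_, ?_⟩
    · funext x
      rw [normOp_apply]
      simp only [toPerm_pow_apply, Pi.zero_apply]
      rw [← D.coc_pow φ v s 2 x, hs, hcz φ hφ]
    · funext x
      rw [normOp_apply]
      simp only [toPerm_pow_apply, Pi.zero_apply]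
      rw [← D.coc_pow φ v u 3 x, hu, hcz φ hφ]
    · have htperm : (MulAction.toPerm t : Perm X) ^ m = 1 := by
        ext x
        rw [toPerm_pow_apply, htm, Perm.one_apply]
      rw [← normOp_comp_perm htperm (fun x => D.coc φ v s x)]
      funext x
      rw [normOp_apply, normOp_apply, ← sub_eq_zero, ← Finset.sum_sub_distrib]
      have h1 := D.coc_pow φ v t m x
      rw [hctm φ hφ] at h1
      have h3 : ∀ i ∈ Finset.range m,
          D.coc φ v s ((MulAction.toPerm t : Perm X) (((MulAction.toPerm t : Perm X) ^ i) x))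
            - D.coc φ v u (((MulAction.toPerm t : Perm X) ^ i) x)
          = - D.coc φ v t (t ^ i • x) := by
        intro i _
        rw [toPerm_pow_apply]
        have h2 := D.coc_mul φ v s t (t ^ i • x)
        rw [← hu_def] at h2
        simp only [MulAction.toPerm_apply]
        rw [h2]
        ring
      rw [Finset.sum_congr rfl h3, Finset.sum_neg_distrib, ← h1, neg_zero]
  -- the kernel
  have hker : ∀ p : P × (X → ℂ), D.Psi s u P p = 0 →
      ((p.1 : Additive D.Γ →+ ℂ) = 0 ∧ ∀ x, p.2 x = p.2 D.x0) := by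
    intro p hp
    rw [Psi_apply, Prod.mk_eq_zero] at hp
    have hS : ∀ g ∈ ({s, t} : Set G), ∀ x, D.coc p.1.1 p.2 g x = 0 := by
      intro g hg x
      rcases hg with rfl | rfl
      · exact congrFun hp.1 x
      · have h2 := D.coc_mul p.1.1 p.2 s g x
        have h3 : D.coc p.1.1 p.2 (s * g) x = 0 := congrFun hp.2 x
        have h4 : D.coc p.1.1 p.2 s (g • x) = 0 := congrFun hp.1 (g • x)
        rw [h3, h4, zero_add] at h2
        exact h2.symm
    have hall := D.coc_eq_zero_of_closure p.1.1 p.2 _ hgen hS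
    exact ⟨D.eq_zero_of_coc_eq_zero _ _ hall, D.const_of_coc_eq_zero htrans _ _ hall⟩
  -- finite dimensionality of P
  have hfin : Module.Finite ℂ P := by
    let j : P →ₗ[ℂ] ((X → ℂ) × (X → ℂ)) := (D.Psi s u P) ∘ₗ LinearMap.inl ℂ P (X → ℂ)
    refine Module.Finite.of_injective j ?_
    rw [← LinearMap.ker_eq_bot, LinearMap.ker_eq_bot']
    intro φ hφ
    have := (hker (φ, 0) hφ).1
    exact Subtype.ext this
  refine ⟨hfin, ?_⟩
  -- the kernel has dimension at most one
  have hk1 : finrank ℂ (LinearMap.ker (D.Psi s u P)) ≤ 1 := by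
    let w : P × (X → ℂ) := (0, fun _ => 1)
    have hw : w ≠ 0 := by
      intro h
      have h2 : w.2 D.x0 = 0 := by rw [h]; rfl
      exact one_ne_zero h2
    have hle : LinearMap.ker (D.Psi s u P) ≤ Submodule.span ℂ {w} := by
      intro p hp
      obtain ⟨h1, h2⟩ := hker p hp
      have : p = (p.2 D.x0) • w := by
        refine Prod.ext (Subtype.ext ?_) ?_
        · simp only [w, Prod.smul_fst, smul_zero, Submodule.coe_zero]
          exact h1
        · funext x
          simp only [w, Prod.smul_snd, Pi.smul_apply, smul_eq_mul, mul_one]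
          exact h2 x
      rw [this]
      exact Submodule.smul_mem _ _ (Submodule.mem_span_singleton_self w)
    have h1 := Submodule.finrank_mono hle
    rw [finrank_span_singleton hw] at h1
    exact h1
  have hrn := (D.Psi s u P).finrank_range_add_finrank_ker
  rw [Module.finrank_prod, Module.finrank_fintype_fun_eq_card] at hrn
  have hle := Submodule.finrank_mono himage
  omega

end ShapiroData

end

end Fermat.Agent.S21
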