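import Mathlib
import Fermat.Prelude.Def_ModularCurve_PeriodHomPair
import Fermat.Prelude.Def_ModularCurve_GenusNumerics

set_option autoImplicit false

/-!
# S21, final assembly (conditional form)

Pure linear algebra: given injectivity of the period pair, `range ≤ parabolicHoms`,
`finrank parabolicHoms ≤ 2 g` and (for the equality) `finrank S₂(Γ₀(N)) = g`, we get the
Eichler-Shimura statement.  As a by-product (without the last hypothesis) we get the upper bound
`finrank S₂(Γ₀(N)) ≤ g`.
-/

namespace Fermat.Agent.S21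

open CongruenceSubgroup ModularCurve ModularCurve.Period

/-- From injectivity of the period pair and finite dimensionality of the parabolic homs,
the space of weight two cusp forms is finite dimensional. -/
theorem finiteDimensional_prod_of_injective (N : ℕ)
    (hinj : Function.Injective (periodHomPair N))
    (hrange : LinearMap.range (periodHomPair N) ≤ parabolicHoms ℂ (Gamma0 N) ℂ)
    (hfin : FiniteDimensional ℂ (parabolicHoms ℂ (Gamma0 N) ℂ)) :
    FiniteDimensional ℂ (CuspForm (Gamma0 N) 2 × CuspForm (Gamma0 N) 2) := by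
  let φ : (CuspForm (Gamma0 N) 2 × CuspForm (Gamma0 N) 2) →ₗ[ℂ]
      parabolicHoms ℂ (Gamma0 N) ℂ :=
    LinearMap.codRestrict _ (periodHomPair N) fun x => hrange ⟨x, rfl⟩
  have hφ : Function.Injective φ := fun x y h => hinj (congrArg Subtype.val h)
  exact FiniteDimensional.of_injective φ hφ

theorem finiteDimensional_cuspForm_of_injective (N : ℕ)
    (hinj : Function.Injective (periodHomPair N))
    (hrange : LinearMap.range (periodHomPair N) ≤ parabolicHoms ℂ (Gamma0 N) ℂ)
    (hfin : FiniteDimensional ℂ (parabolicHoms ℂ (Gamma0 N) ℂ)) :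
    FiniteDimensional ℂ (CuspForm (Gamma0 N) 2) := by
  have := finiteDimensional_prod_of_injective N hinj hrange hfin
  exact FiniteDimensional.of_injective
    (LinearMap.inl ℂ (CuspForm (Gamma0 N) 2) (CuspForm (Gamma0 N) 2)) LinearMap.inl_injective

/-- `2 * finrank S₂(Γ₀(N)) = finrank (range periodHomPair) ≤ finrank parabolicHoms`. -/
theorem two_mul_finrank_cuspForm_le (N : ℕ)
    (hinj : Function.Injective (periodHomPair N))
    (hrange : LinearMap.range (periodHomPair N) ≤ parabolicHoms ℂ (Gamma0 N) ℂ)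
    (hfin : FiniteDimensional ℂ (parabolicHoms ℂ (Gamma0 N) ℂ)) :
    2 * Module.finrank ℂ (CuspForm (Gamma0 N) 2) =
        Module.finrank ℂ (LinearMap.range (periodHomPair N)) ∧
      Module.finrank ℂ (LinearMap.range (periodHomPair N)) ≤
        Module.finrank ℂ (parabolicHoms ℂ (Gamma0 N) ℂ) := by
  have h1 := finiteDimensional_prod_of_injective N hinj hrange hfin
  have h2 := finiteDimensional_cuspForm_of_injective N hinj hrange hfin
  refine ⟨?_, Submodule.finrank_mono hrange⟩
  rw [LinearMap.finrank_range_of_inj hinj, Module.finrank_prod]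
  ring

/-- **Upper bound for the dimension of `S₂(Γ₀(N))`** (no Riemann-Roch needed). -/
theorem finrank_cuspForm_le (N : ℕ)
    (hinj : Function.Injective (periodHomPair N))
    (hrange : LinearMap.range (periodHomPair N) ≤ parabolicHoms ℂ (Gamma0 N) ℂ)
    (hfin : FiniteDimensional ℂ (parabolicHoms ℂ (Gamma0 N) ℂ))
    (hpar : (Module.finrank ℂ (parabolicHoms ℂ (Gamma0 N) ℂ) : ℚ) ≤ 2 * genusFormula N) :
    (Module.finrank ℂ (CuspForm (Gamma0 N) 2) : ℚ) ≤ genusFormula N := by
  obtain ⟨h1, h2⟩ := two_mul_finrank_cuspForm_le N hinj hrange hfin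
  have h3 : (2 * Module.finrank ℂ (CuspForm (Gamma0 N) 2) : ℚ) ≤
      (Module.finrank ℂ (parabolicHoms ℂ (Gamma0 N) ℂ) : ℚ) := by
    have : 2 * Module.finrank ℂ (CuspForm (Gamma0 N) 2) ≤
        Module.finrank ℂ (parabolicHoms ℂ (Gamma0 N) ℂ) := h1 ▸ h2
    exact_mod_cast this
  linarith

/-- **Eichler-Shimura, conditional assembly.** -/
theorem eichlerShimura_of (N : ℕ)
    (hinj : Function.Injective (periodHomPair N))
    (hrange : LinearMap.range (periodHomPair N) ≤ parabolicHoms ℂ (Gamma0 N) ℂ)
    (hfin : FiniteDimensional ℂ (parabolicHoms ℂ (Gamma0 N) ℂ))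
    (hpar : (Module.finrank ℂ (parabolicHoms ℂ (Gamma0 N) ℂ) : ℚ) ≤ 2 * genusFormula N)
    (hS20 : (Module.finrank ℂ (CuspForm (Gamma0 N) 2) : ℚ) = genusFormula N) :
    Function.Injective (periodHomPair N) ∧
      LinearMap.range (periodHomPair N) = parabolicHoms ℂ (Gamma0 N) ℂ := by
  refine ⟨hinj, ?_⟩
  obtain ⟨h1, _⟩ := two_mul_finrank_cuspForm_le N hinj hrange hfin
  apply Submodule.eq_of_le_of_finrank_le hrange
  rw [← h1]
  have h3 : (Module.finrank ℂ (parabolicHoms ℂ (Gamma0 N) ℂ) : ℚ) ≤
      ((2 * Module.finrank ℂ (CuspForm (Gamma0 N) 2) : ℕ) : ℚ) := by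
    push_cast
    rw [hS20]
    exact hpar
  exact_mod_cast h3

end Fermat.Agent.S21
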