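import Mathlib
import Fermat.Prelude.Def_ModularCurve_PeriodMap
import Fermat.Agent.S24.CombMain
import Fermat.Agent.S21.ParabolicCocycle

set_option autoImplicit false
set_option linter.unusedSectionVars false
set_option linter.style.haveILetI false

/-!
# S21, chunk (D-final): `dim Hom_par(Γ₀(N), ℂ) ≤ 2 g(X₀(N))`
-/

namespace Fermat.Agent.S21

open Equiv Equiv.Perm Module Matrix MatrixGroups CongruenceSubgroup
open Fermat.Agent.S24 (orb P1 matS matT matST)
open ModularCurve.Period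

noncomputable section

/-- The Shapiro data for `Γ₀(N) ≤ SL(2, ℤ)` acting on `P¹(ℤ/N)`. -/
def gamma0Data (N : ℕ) : ShapiroData SL(2, ℤ) (P1 (ZMod N)) where
  x0 := P1.base (ZMod N)
  Γ := Gamma0 N
  mem_iff g := by
    rw [← Fermat.Agent.S24.stabilizer_base N]
    exact MulAction.mem_stabilizer_iff
  r x := (Fermat.Agent.S24.exists_smul_base_eq N x).choose
  r_smul x := (Fermat.Agent.S24.exists_smul_base_eq N x).choose_spec

theorem parDim_matS_sq : matS ^ 2 = (-1 : SL(2, ℤ)) := by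
  apply Subtype.ext
  rw [Matrix.SpecialLinearGroup.coe_pow, Matrix.SpecialLinearGroup.coe_neg,
    Matrix.SpecialLinearGroup.coe_one]
  show (!![0, -1; 1, 0] : Matrix (Fin 2) (Fin 2) ℤ) ^ 2 = -1
  rw [pow_two, Matrix.mul_fin_two, Matrix.one_fin_two]
  ext i j
  fin_cases i <;> fin_cases j <;> simp

theorem parDim_matST_cube : (matS * matT) ^ 3 = (-1 : SL(2, ℤ)) := by
  apply Subtype.ext
  rw [Matrix.SpecialLinearGroup.coe_pow, Matrix.SpecialLinearGroup.coe_mul,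
    Matrix.SpecialLinearGroup.coe_neg, Matrix.SpecialLinearGroup.coe_one]
  show ((!![0, -1; 1, 0] : Matrix (Fin 2) (Fin 2) ℤ) * !![1, 1; 0, 1]) ^ 3 = -1
  rw [pow_succ, pow_two, Matrix.mul_fin_two, Matrix.mul_fin_two, Matrix.mul_fin_two,
    Matrix.one_fin_two]
  ext i j
  fin_cases i <;> fin_cases j <;> simp

theorem parDim_neg_one_mem_Gamma0 (N : ℕ) : (-1 : SL(2, ℤ)) ∈ Gamma0 N := by
  rw [Gamma0_mem]
  simp

theorem parDim_trace_conj_matT_pow (g : SL(2, ℤ)) (m : ℕ) :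
    ((g⁻¹ * matT ^ m * g : SL(2, ℤ)) : Matrix (Fin 2) (Fin 2) ℤ).trace = 2 := by
  rw [Matrix.SpecialLinearGroup.coe_mul, Matrix.trace_mul_comm, ← Matrix.SpecialLinearGroup.coe_mul,
    mul_inv_cancel_left]
  have hk : ((matT ^ m : SL(2, ℤ)) : Matrix (Fin 2) (Fin 2) ℤ) = !![1, (m : ℤ); 0, 1] := by
    rw [Fermat.Agent.S24.matT_eq, ← zpow_natCast]
    exact ModularGroup.coe_T_zpow m
  rw [hk, Matrix.trace_fin_two_of]
  norm_num

theorem parDim_matT_pow_smul (N : ℕ) (x : P1 (ZMod N)) : matT ^ N • x = x := by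
  induction x using P1.ind with
  | _ c d h =>
    have h' : IsCoprime (c + ((N : ℕ) : ℤ) * d) d := Fermat.Agent.S24.isCoprime_add_zsmul _ h
    have := Fermat.Agent.S24.P1.matT_zpow_smul ((N : ℕ) : ℤ) c d h h'
    rw [zpow_natCast] at this
    rw [this, P1.mk_eq_mk]
    simp

theorem parabolicHoms_neg_one (N : ℕ) (φ : Additive (Gamma0 N) →+ ℂ)
    (hφ : φ ∈ parabolicHoms ℂ (Gamma0 N) ℂ) :
    φ (Additive.ofMul ⟨-1, parDim_neg_one_mem_Gamma0 N⟩) = 0 := by
  rw [mem_parabolicHoms_iff] at hφ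
  refine hφ ⟨-1, parDim_neg_one_mem_Gamma0 N⟩ ?_
  simp

theorem parabolicHoms_conj_matT_pow (N : ℕ) (φ : Additive (Gamma0 N) →+ ℂ)
    (hφ : φ ∈ parabolicHoms ℂ (Gamma0 N) ℂ) (g : SL(2, ℤ)) (m : ℕ)
    (h : g⁻¹ * matT ^ m * g ∈ Gamma0 N) :
    φ (Additive.ofMul ⟨g⁻¹ * matT ^ m * g, h⟩) = 0 := by
  rw [mem_parabolicHoms_iff] at hφ
  refine hφ ⟨_, h⟩ ?_
  show ((g⁻¹ * matT ^ m * g : SL(2, ℤ)) : Matrix (Fin 2) (Fin 2) ℤ).trace ^ 2 = 4
  rw [parDim_trace_conj_matT_pow]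
  norm_num

/-- **The parabolic cohomology bound.** -/
theorem finrank_parabolicHoms_le (N : ℕ) [NeZero N] :
    Module.Finite ℂ (parabolicHoms ℂ (Gamma0 N) ℂ) ∧
      (finrank ℂ (parabolicHoms ℂ (Gamma0 N) ℂ) : ℚ) ≤ 2 * ModularCurve.genusFormula N := by
  classical
  haveI : Fintype (P1 (ZMod N)) := Fintype.ofFinite _
  have hgen : Subgroup.closure ({matS, matT} : Set SL(2, ℤ)) = ⊤ := by
    rw [Fermat.Agent.S24.matS_eq, Fermat.Agent.S24.matT_eq, SpecialLinearGroup.SL2Z_generators]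
  have hz : ∀ g : SL(2, ℤ), g * (-1) = (-1) * g := by
    intro g
    rw [mul_neg, mul_one, neg_mul, one_mul]
  obtain ⟨hfin, hle⟩ := (gamma0Data N).finrank_add_card_le
    (fun x => Fermat.Agent.S24.exists_smul_base_eq N x) matS matT hgen (-1) hz
    (parDim_neg_one_mem_Gamma0 N) parDim_matS_sq parDim_matST_cube N (parDim_matT_pow_smul N)
    (parabolicHoms ℂ (Gamma0 N) ℂ)
    (fun φ hφ => parabolicHoms_neg_one N φ hφ)
    (fun φ hφ g h => parabolicHoms_conj_matT_pow N φ hφ g N h)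
  refine ⟨hfin, ?_⟩
  have hle' : finrank ℂ (parabolicHoms ℂ (Gamma0 N) ℂ) + Fintype.card (P1 (ZMod N)) ≤
      1 + finrank ℂ (parabolicPairs (MulAction.toPerm matS) (MulAction.toPerm (matS * matT))
        (MulAction.toPerm matT : Perm (P1 (ZMod N))) N) := hle
  have hN : 0 < N := Nat.pos_of_ne_zero (NeZero.ne N)
  have hst : (MulAction.toPerm (matS * matT) : Perm (P1 (ZMod N))) =
      MulAction.toPerm matS * MulAction.toPerm matT :=
    map_mul (MulAction.toPermHom SL(2, ℤ) (P1 (ZMod N))) matS matT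
  have halg := finrank_parabolicPairs_le (MulAction.toPerm matS : Perm (P1 (ZMod N)))
    (MulAction.toPerm (matS * matT)) (MulAction.toPerm matT) N hN
    Fermat.Agent.S24.toPerm_matS_sq
    (by rw [← Fermat.Agent.S24.matST_eq]; exact Fermat.Agent.S24.toPerm_matST_cube)
    hst (Fermat.Agent.S24.exists_mem_closure_toPerm N)
  set d : ℤ := (Nat.card (P1 (ZMod N)) : ℤ)
      - orb (MulAction.toPerm matS : Perm (P1 (ZMod N)))
      - orb (MulAction.toPerm matST : Perm (P1 (ZMod N)))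
      - orb (MulAction.toPerm matT : Perm (P1 (ZMod N))) with hd
  obtain ⟨h0, hev, hg⟩ := Fermat.Agent.S24.comb_main_P1 N d hd
  rw [Fermat.Agent.S24.toNat_div_two_cast d h0 hev] at hg
  rw [← hg]
  have hcard : Nat.card (P1 (ZMod N)) = Fintype.card (P1 (ZMod N)) := Nat.card_eq_fintype_card
  rw [← Fermat.Agent.S24.matST_eq] at halg hle'
  have key : (finrank ℂ (parabolicHoms ℂ (Gamma0 N) ℂ) : ℤ) ≤ d + 2 := by
    rw [hd, hcard]
    omega
  have : ((finrank ℂ (parabolicHoms ℂ (Gamma0 N) ℂ) : ℤ) : ℚ) ≤ ((d + 2 : ℤ) : ℚ) := by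
    exact_mod_cast key
  push_cast at this
  linarith

end

end Fermat.Agent.S21
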