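import Fermat.Agent.S21.Injective
import Fermat.Agent.S21.ParabolicDim
import Fermat.Agent.S21.Final

set_option autoImplicit false

/-!
# S21 assembled, modulo S20

`Injective.lean` (analytic half), `ParabolicDim.lean` (group theoretic half) and `Final.lean`
(linear algebra) are put together.  The only missing input for S21 is S20
(`finrank S₂(Γ₀(N)) = genusFormula N`); unconditionally we obtain the upper bound
`finrank S₂(Γ₀(N)) ≤ genusFormula N`.

NB: this file must not be imported together with `S21/Parab.lean` (same names as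
`S21/Parabolic.lean`); the range statement is reproved here from `Parabolic.lean`.
-/

namespace Fermat.Agent.S21

open CongruenceSubgroup ModularCurve ModularCurve.Period

/-- The range of the period pair consists of parabolic homomorphisms. -/
theorem asm_range_periodHomPair_le_parabolicHoms (N : ℕ) [NeZero N] :
    LinearMap.range (periodHomPair N) ≤ parabolicHoms ℂ (Gamma0 N) ℂ := by
  rintro _ ⟨⟨f, g⟩, rfl⟩
  rw [periodHomPair_apply]
  have hf := periodMap_mem_parabolicHoms N f
  have hg := periodMap_mem_parabolicHoms N g
  exact Submodule.add_mem _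
    (Submodule.add_mem _ hf (charInvolution_mem_parabolicHoms N ℂ ℂ hf))
    (Submodule.sub_mem _ hg (charInvolution_mem_parabolicHoms N ℂ ℂ hg))

/-- **Upper bound** `dim S₂(Γ₀(N)) ≤ g(X₀(N))`, unconditional (no Riemann-Roch). -/
theorem asm_finrank_cuspForm_le_genusFormula (N : ℕ) [NeZero N] :
    (Module.finrank ℂ (CuspForm (Gamma0 N) 2) : ℚ) ≤ genusFormula N :=
  finrank_cuspForm_le N (periodHomPair_injective N) (asm_range_periodHomPair_le_parabolicHoms N)
    (finrank_parabolicHoms_le N).1 (finrank_parabolicHoms_le N).2

/-- **S21 from S20.** -/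
theorem asm_eichlerShimura_of_finrank (N : ℕ) [NeZero N]
    (hS20 : (Module.finrank ℂ (CuspForm (Gamma0 N) 2) : ℚ) = genusFormula N) :
    Function.Injective (periodHomPair N) ∧
      LinearMap.range (periodHomPair N) = parabolicHoms ℂ (Gamma0 N) ℂ :=
  eichlerShimura_of N (periodHomPair_injective N) (asm_range_periodHomPair_le_parabolicHoms N)
    (finrank_parabolicHoms_le N).1 (finrank_parabolicHoms_le N).2 hS20

/-- It even suffices to have the lower bound `g ≤ dim S₂(Γ₀(N))`. -/
theorem asm_eichlerShimura_of_le_finrank (N : ℕ) [NeZero N]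
    (hS20 : genusFormula N ≤ (Module.finrank ℂ (CuspForm (Gamma0 N) 2) : ℚ)) :
    Function.Injective (periodHomPair N) ∧
      LinearMap.range (periodHomPair N) = parabolicHoms ℂ (Gamma0 N) ℂ :=
  asm_eichlerShimura_of_finrank N (le_antisymm (asm_finrank_cuspForm_le_genusFormula N) hS20)

/-- S20 from the lower bound. -/
theorem asm_finrank_cuspForm_eq_of_le (N : ℕ) [NeZero N]
    (h : genusFormula N ≤ (Module.finrank ℂ (CuspForm (Gamma0 N) 2) : ℚ)) :
    (Module.finrank ℂ (CuspForm (Gamma0 N) 2) : ℚ) = genusFormula N :=
  le_antisymm (asm_finrank_cuspForm_le_genusFormula N) h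

end Fermat.Agent.S21
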