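import Mathlib
import Fermat.Prelude.Def_ModularCurve_PeriodHomPair
import Fermat.Agent.S21.ParabolicDim

set_option autoImplicit false
set_option linter.style.haveILetI false

/-!
# S21: the dimension count

From the injectivity of `periodHomPair N`, the inclusion of its range in the parabolic
homomorphisms and the bound `finrank parabolicHoms ≤ 2 g`:
* `finrank S₂(Γ₀(N)) ≤ genusFormula N` (no Riemann–Roch), and
* given `finrank S₂(Γ₀(N)) = genusFormula N`, the range is everything.
-/

namespace Fermat.Agent.S21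

open Module CongruenceSubgroup ModularCurve ModularCurve.Period

noncomputable section

variable (N : ℕ) [NeZero N]

theorem dimCount_finite_cuspForm (hinj : Function.Injective (periodHomPair N))
    (hrange : LinearMap.range (periodHomPair N) ≤ parabolicHoms ℂ (Gamma0 N) ℂ) :
    Module.Finite ℂ (CuspForm (Gamma0 N) 2) := by
  obtain ⟨hfin, -⟩ := finrank_parabolicHoms_le N
  let j : (CuspForm (Gamma0 N) 2 × CuspForm (Gamma0 N) 2) →ₗ[ℂ] parabolicHoms ℂ (Gamma0 N) ℂ :=
    LinearMap.codRestrict _ (periodHomPair N) fun p => hrange ⟨p, rfl⟩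
  have hj : Function.Injective j := fun p q h => hinj (congrArg Subtype.val h)
  have h2 : Module.Finite ℂ (CuspForm (Gamma0 N) 2 × CuspForm (Gamma0 N) 2) :=
    Module.Finite.of_injective j hj
  exact Module.Finite.of_injective (LinearMap.inl ℂ (CuspForm (Gamma0 N) 2) (CuspForm (Gamma0 N) 2))
    LinearMap.inl_injective

/-- `2 * finrank S₂ ≤ finrank parabolicHoms`. -/
theorem dimCount_two_mul_le (hinj : Function.Injective (periodHomPair N))
    (hrange : LinearMap.range (periodHomPair N) ≤ parabolicHoms ℂ (Gamma0 N) ℂ) :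
    2 * finrank ℂ (CuspForm (Gamma0 N) 2) ≤ finrank ℂ (parabolicHoms ℂ (Gamma0 N) ℂ) := by
  obtain ⟨hfin, -⟩ := finrank_parabolicHoms_le N
  haveI := dimCount_finite_cuspForm N hinj hrange
  let j : (CuspForm (Gamma0 N) 2 × CuspForm (Gamma0 N) 2) →ₗ[ℂ] parabolicHoms ℂ (Gamma0 N) ℂ :=
    LinearMap.codRestrict _ (periodHomPair N) fun p => hrange ⟨p, rfl⟩
  have hj : Function.Injective j := fun p q h => hinj (congrArg Subtype.val h)
  have h1 := LinearMap.finrank_le_finrank_of_injective hj
  rw [Module.finrank_prod] at h1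
  omega

/-- **Upper bound for the dimension of `S₂(Γ₀(N))`**, without Riemann–Roch. -/
theorem finrank_cuspForm_le_genusFormula (hinj : Function.Injective (periodHomPair N))
    (hrange : LinearMap.range (periodHomPair N) ≤ parabolicHoms ℂ (Gamma0 N) ℂ) :
    (finrank ℂ (CuspForm (Gamma0 N) 2) : ℚ) ≤ genusFormula N := by
  obtain ⟨-, hle⟩ := finrank_parabolicHoms_le N
  have h := dimCount_two_mul_le N hinj hrange
  have h' : (2 : ℚ) * (finrank ℂ (CuspForm (Gamma0 N) 2) : ℚ)
      ≤ (finrank ℂ (parabolicHoms ℂ (Gamma0 N) ℂ) : ℚ) := by exact_mod_cast h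
  linarith

/-- **Eichler–Shimura from the dimension formula.** -/
theorem eichlerShimura_of_finrank (hinj : Function.Injective (periodHomPair N))
    (hrange : LinearMap.range (periodHomPair N) ≤ parabolicHoms ℂ (Gamma0 N) ℂ)
    (h20 : (finrank ℂ (CuspForm (Gamma0 N) 2) : ℚ) = genusFormula N) :
    Function.Injective (periodHomPair N) ∧
      LinearMap.range (periodHomPair N) = parabolicHoms ℂ (Gamma0 N) ℂ := by
  refine ⟨hinj, ?_⟩
  obtain ⟨hfin, hle⟩ := finrank_parabolicHoms_le N
  haveI := dimCount_finite_cuspForm N hinj hrange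
  refine Submodule.eq_of_le_of_finrank_le hrange ?_
  rw [LinearMap.finrank_range_of_inj hinj, Module.finrank_prod]
  have h1 : (finrank ℂ (parabolicHoms ℂ (Gamma0 N) ℂ) : ℚ)
      ≤ ((finrank ℂ (CuspForm (Gamma0 N) 2) + finrank ℂ (CuspForm (Gamma0 N) 2) : ℕ) : ℚ) := by
    push_cast
    linarith
  exact_mod_cast h1

end

end Fermat.Agent.S21
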