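import Mathlib
import Fermat.Agent.S24.PermOrbits

set_option autoImplicit false
set_option linter.unusedSectionVars false

/-!
# S21 (group-theoretic half), linear algebra of permutation modules

For a finite set `I`, a field `k` and permutations `s u t` of `I` we study the spaces of functions
`I → k` which are invariant / anti-invariant / killed by the norm of a permutation, and compute the
dimension of the space `parabZ` which receives the parabolic cocycles.
-/

namespace Fermat.Agent.S21

open Equiv Equiv.Perm Module Finset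
open Fermat.Agent.S24 (orb)

noncomputable section

variable {I : Type*} [Fintype I] [DecidableEq I] (k : Type*) [Field k]

/-- Composition with a permutation: `(pOp g f) x = f (g x)`. -/
def pOp (g : Perm I) : (I → k) →ₗ[k] (I → k) := LinearMap.funLeft k k g

@[simp] theorem pOp_apply (g : Perm I) (f : I → k) (x : I) : pOp k g f x = f (g x) := rfl

/-- The `g`-invariant functions. -/
def invSub (g : Perm I) : Submodule k (I → k) where
  carrier := {f | ∀ x, f (g x) = f x}
  zero_mem' := fun _ => rfl
  add_mem' := fun {a b} ha hb x => by simp [ha x, hb x]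
  smul_mem' := fun c a ha x => by simp [ha x]

variable {k}

theorem mem_invSub {g : Perm I} {f : I → k} : f ∈ invSub k g ↔ ∀ x, f (g x) = f x := Iff.rfl

theorem eq_of_sameCycle {g : Perm I} {f : I → k} (hf : f ∈ invSub k g) {x y : I}
    (h : SameCycle g x y) : f x = f y := by
  obtain ⟨i, rfl⟩ := h.exists_nat_pow_eq
  clear h
  induction i with
  | zero => simp
  | succ n ih => rw [pow_succ', Perm.mul_apply, hf]; exact ih

variable (k)

/-- Invariant functions are functions on the orbit space. -/
def invSubEquiv (g : Perm I) : ↥(invSub k g) ≃ₗ[k] (Quotient (SameCycle.setoid g) → k) where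
  toFun f := Quotient.lift (s := SameCycle.setoid g) (f : I → k)
    (fun _ _ h => eq_of_sameCycle f.2 h)
  invFun h := ⟨fun x => h (Quotient.mk _ x), by
    intro x
    show h _ = h _
    congr 1
    apply Quotient.sound
    exact (SameCycle.refl g x).apply_left⟩
  map_add' f₁ f₂ := by
    ext q
    induction q using Quotient.inductionOn with | _ x => rfl
  map_smul' c f := by
    ext q
    induction q using Quotient.inductionOn with | _ x => rfl
  left_inv f := by
    ext x
    rfl
  right_inv h := by
    ext q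
    induction q using Quotient.inductionOn with | _ x => rfl

theorem finrank_invSub (g : Perm I) : finrank k ↥(invSub k g) = orb g := by
  classical
  let _ : Fintype (Quotient (SameCycle.setoid g)) := Fintype.ofFinite _
  rw [(invSubEquiv k g).finrank_eq, Module.finrank_fintype_fun_eq_card, orb,
    Nat.card_eq_fintype_card]

/-- The `s`-anti-invariant functions. -/
def antiSub (s : Perm I) : Submodule k (I → k) where
  carrier := {a | ∀ x, a (s x) = -a x}
  zero_mem' := fun _ => by simp
  add_mem' := fun {a b} ha hb x => by simp [ha x, hb x]; ring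
  smul_mem' := fun c a ha x => by simp [ha x]

/-- The functions killed by `1 + u + u²`. -/
def normSub3 (u : Perm I) : Submodule k (I → k) where
  carrier := {b | ∀ x, b x + b (u x) + b (u (u x)) = 0}
  zero_mem' := fun _ => by simp
  add_mem' := fun {a b} ha hb x => by
    have h1 := ha x
    have h2 := hb x
    simp only [Pi.add_apply]
    linear_combination h1 + h2
  smul_mem' := fun c a ha x => by
    have h1 := ha x
    simp only [Pi.smul_apply, smul_eq_mul]
    linear_combination c * h1

variable {k}

theorem mem_antiSub {s : Perm I} {a : I → k} : a ∈ antiSub k s ↔ ∀ x, a (s x) = -a x := Iff.rfl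

theorem mem_normSub3 {u : Perm I} {b : I → k} :
    b ∈ normSub3 k u ↔ ∀ x, b x + b (u x) + b (u (u x)) = 0 := Iff.rfl

theorem perm_sq_apply {s : Perm I} (hs : s ^ 2 = 1) (x : I) : s (s x) = x := by
  have := congrArg (fun g : Perm I => g x) hs
  simpa [pow_two] using this

theorem perm_cube_apply {u : Perm I} (hu : u ^ 3 = 1) (x : I) : u (u (u x)) = x := by
  have := congrArg (fun g : Perm I => g x) hu
  simpa [pow_succ] using this

variable (k)

theorem finrank_antiSub {s : Perm I} (hs : s ^ 2 = 1) (h2 : (2 : k) ≠ 0) :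
    finrank k ↥(antiSub k s) + orb s = Fintype.card I := by
  set P : (I → k) →ₗ[k] (I → k) := LinearMap.id + pOp k s with hP
  have hker : LinearMap.ker P = antiSub k s := by
    ext a
    rw [LinearMap.mem_ker, mem_antiSub]
    constructor
    · intro h x
      have := congrFun h x
      simp only [hP, LinearMap.add_apply, LinearMap.id_coe, id_eq, Pi.add_apply, pOp_apply,
        Pi.zero_apply] at this
      linear_combination this
    · intro h
      funext x
      simp only [hP, LinearMap.add_apply, LinearMap.id_coe, id_eq, Pi.add_apply, pOp_apply,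
        Pi.zero_apply, h x]
      ring
  have hrange : LinearMap.range P = invSub k s := by
    ext f
    rw [LinearMap.mem_range, mem_invSub]
    constructor
    · rintro ⟨a, rfl⟩ x
      simp only [hP, LinearMap.add_apply, LinearMap.id_coe, id_eq, Pi.add_apply, pOp_apply,
        perm_sq_apply hs]
      ring
    · intro h
      refine ⟨(2 : k)⁻¹ • f, ?_⟩
      funext x
      simp only [hP, LinearMap.add_apply, LinearMap.id_coe, id_eq, Pi.add_apply, pOp_apply,
        Pi.smul_apply, smul_eq_mul, h x]
      field_simp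
      ring
  have := LinearMap.finrank_range_add_finrank_ker P
  rw [hker, hrange, finrank_invSub, Module.finrank_fintype_fun_eq_card] at this
  omega

theorem finrank_normSub3 {u : Perm I} (hu : u ^ 3 = 1) (h3 : (3 : k) ≠ 0) :
    finrank k ↥(normSub3 k u) + orb u = Fintype.card I := by
  set P : (I → k) →ₗ[k] (I → k) := LinearMap.id + pOp k u + pOp k u ∘ₗ pOp k u with hP
  have hPapp : ∀ (a : I → k) (x : I), P a x = a x + a (u x) + a (u (u x)) := by
    intro a x
    simp [hP]
  have hker : LinearMap.ker P = normSub3 k u := by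
    ext a
    rw [LinearMap.mem_ker, mem_normSub3]
    constructor
    · intro h x
      have := congrFun h x
      rw [hPapp] at this
      simpa using this
    · intro h
      funext x
      rw [hPapp, h x]
      rfl
  have hrange : LinearMap.range P = invSub k u := by
    ext f
    rw [LinearMap.mem_range, mem_invSub]
    constructor
    · rintro ⟨a, rfl⟩ x
      rw [hPapp, hPapp, perm_cube_apply hu]
      ring
    · intro h
      refine ⟨(3 : k)⁻¹ • f, ?_⟩
      funext x
      rw [hPapp]
      simp only [Pi.smul_apply, smul_eq_mul, h]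
      field_simp
      ring
  have := LinearMap.finrank_range_add_finrank_ker P
  rw [hker, hrange, finrank_invSub, Module.finrank_fintype_fun_eq_card] at this
  omega

/-- `cycSum t m f x = ∑ i < m, f (t ^ i x)`. -/
def cycSum (t : Perm I) (m : ℕ) : (I → k) →ₗ[k] (I → k) where
  toFun f x := ∑ i ∈ range m, f ((t ^ i) x)
  map_add' f g := by
    funext x
    simp [Finset.sum_add_distrib]
  map_smul' c f := by
    funext x
    simp [Finset.mul_sum]

variable {k}

theorem cycSum_apply (t : Perm I) (m : ℕ) (f : I → k) (x : I) :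
    cycSum k t m f x = ∑ i ∈ range m, f ((t ^ i) x) := rfl

theorem cycSum_pOp {t : Perm I} {m : ℕ} (htm : t ^ m = 1) (f : I → k) :
    cycSum k t m (pOp k t f) = cycSum k t m f := by
  funext x
  rw [cycSum_apply, cycSum_apply]
  have h1 : ∀ i, pOp k t f ((t ^ i) x) = f ((t ^ (i + 1)) x) := by
    intro i
    rw [pOp_apply, pow_succ', Perm.mul_apply]
  simp only [h1]
  have h2 := Finset.sum_range_succ' (fun i => f ((t ^ i) x)) m
  have h3 := Finset.sum_range_succ (fun i => f ((t ^ i) x)) m
  rw [h2] at h3
  simp only [htm, pow_zero, Perm.coe_one, id_eq] at h3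
  exact add_right_cancel h3

theorem cycSum_mem_invSub {t : Perm I} {m : ℕ} (htm : t ^ m = 1) (f : I → k) :
    cycSum k t m f ∈ invSub k t := by
  intro x
  have h := congrFun (cycSum_pOp htm f) x
  rw [← h, cycSum_apply, cycSum_apply]
  refine Finset.sum_congr rfl fun i _ => ?_
  rw [pOp_apply, ← Perm.mul_apply, ← Perm.mul_apply, ← pow_succ, ← pow_succ']

theorem sum_cycSum (t : Perm I) (m : ℕ) (f : I → k) :
    ∑ x, cycSum k t m f x = m * ∑ x, f x := by
  simp only [cycSum_apply]
  rw [Finset.sum_comm]
  have : ∀ i ∈ range m, ∑ x, f ((t ^ i) x) = ∑ x, f x := fun i _ =>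
    Equiv.sum_comp (t ^ i) f
  rw [Finset.sum_congr rfl this]
  simp

theorem cycSum_of_mem_invSub {t : Perm I} (m : ℕ) {f : I → k} (hf : f ∈ invSub k t) :
    cycSum k t m f = (m : k) • f := by
  funext x
  rw [cycSum_apply]
  have : ∀ i ∈ range m, f ((t ^ i) x) = f x := fun i _ =>
    (eq_of_sameCycle hf ⟨(i : ℤ), by simp⟩).symm
  rw [Finset.sum_congr rfl this]
  simp

theorem sum_eq_zero_of_mem_antiSub {s : Perm I} (h2 : (2 : k) ≠ 0) {a : I → k}
    (ha : a ∈ antiSub k s) : ∑ x, a x = 0 := by
  have h1 : ∑ x, a (s x) = ∑ x, a x := Equiv.sum_comp s a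
  have h3 : ∑ x, a (s x) = -∑ x, a x := by
    rw [← Finset.sum_neg_distrib]
    exact Finset.sum_congr rfl fun x _ => ha x
  have h4 : (2 : k) * ∑ x, a x = 0 := by linear_combination h3 - h1
  exact (mul_eq_zero.mp h4).resolve_left h2

theorem sum_eq_zero_of_mem_normSub3 {u : Perm I} (h3 : (3 : k) ≠ 0) {b : I → k}
    (hb : b ∈ normSub3 k u) : ∑ x, b x = 0 := by
  have h1 : ∑ x, b (u x) = ∑ x, b x := Equiv.sum_comp u b
  have h2 : ∑ x, b (u (u x)) = ∑ x, b x := by
    rw [Equiv.sum_comp u (fun x => b (u x)), h1]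
  have h4 : ∑ x, (b x + b (u x) + b (u (u x))) = 0 :=
    Finset.sum_eq_zero fun x _ => hb x
  rw [Finset.sum_add_distrib, Finset.sum_add_distrib, h1, h2] at h4
  have h5 : (3 : k) * ∑ x, b x = 0 := by linear_combination h4
  exact (mul_eq_zero.mp h5).resolve_left h3

theorem sub_pOp_mem_antiSub {s : Perm I} (hs : s ^ 2 = 1) (a : I → k) :
    pOp k s a - a ∈ antiSub k s := by
  intro x
  simp only [Pi.sub_apply, pOp_apply, perm_sq_apply hs]
  ring

theorem sub_pOp_mem_normSub3 {u : Perm I} (hu : u ^ 3 = 1) (b : I → k) :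
    b - pOp k u b ∈ normSub3 k u := by
  intro x
  simp only [Pi.sub_apply, pOp_apply, perm_cube_apply hu]
  ring

/-- The augmentation submodule is generated by the `f - f ∘ s`, `f - f ∘ u` when `⟨s, u⟩` is
transitive. -/
theorem exists_eq_sub_add_sub_of_sum_eq_zero {s u : Perm I}
    (htrans : ∀ i j : I, ∃ g ∈ Subgroup.closure ({s, u} : Set (Perm I)), g i = j)
    {f : I → k} (hf : ∑ x, f x = 0) :
    ∃ a b : I → k, f = (pOp k s a - a) + (b - pOp k u b) := by
  classical
  set W : Submodule k (I → k) :=
    LinearMap.range (pOp k s - LinearMap.id) ⊔ LinearMap.range (LinearMap.id - pOp k u) with hW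
  suffices hfW : f ∈ W by
    obtain ⟨y, ⟨a, rfl⟩, z, ⟨b, rfl⟩, hyz⟩ := Submodule.mem_sup.mp hfW
    exact ⟨a, b, hyz.symm⟩
  have hsingle : ∀ (g : Perm I) (z : I), pOp k g (Pi.single z (1 : k)) = Pi.single (g⁻¹ z) 1 := by
    intro g z
    funext y
    rw [pOp_apply, Pi.single_apply, Pi.single_apply]
    congr 1
    rw [eq_iff_iff]
    constructor
    · intro h; rw [← h]; simp
    · intro h; rw [h]; simp
  let G' : Subgroup (Perm I) :=
    { carrier := {g | ∀ x, (Pi.single x (1 : k) - Pi.single (g x) 1 : I → k) ∈ W}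
      one_mem' := fun x => by simp
      mul_mem' := by
        intro g h hg hh x
        have : (Pi.single x (1 : k) - Pi.single ((g * h) x) 1 : I → k) =
            (Pi.single x 1 - Pi.single (h x) 1) + (Pi.single (h x) 1 - Pi.single (g (h x)) 1) := by
          rw [Perm.mul_apply]; abel
        rw [this]
        exact W.add_mem (hh x) (hg (h x))
      inv_mem' := by
        intro g hg x
        have := hg (g⁻¹ x)
        have e : g (g⁻¹ x) = x := by simp
        rw [e] at this
        have h2 := W.neg_mem this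
        rwa [neg_sub] at h2 }
  have hsG : s ∈ G' := by
    intro x
    have : (Pi.single x (1 : k) - Pi.single (s x) 1 : I → k) =
        (pOp k s - (LinearMap.id : (I → k) →ₗ[k] (I → k))) (Pi.single (s x) 1) := by
      have e : s⁻¹ (s x) = x := by simp
      rw [LinearMap.sub_apply, hsingle, e, LinearMap.id_apply]
    rw [this]
    exact Submodule.mem_sup_left (LinearMap.mem_range_self _ _)
  have huG : u ∈ G' := by
    intro x
    have : (Pi.single x (1 : k) - Pi.single (u x) 1 : I → k) =
        ((LinearMap.id : (I → k) →ₗ[k] (I → k)) - pOp k u) (-(Pi.single (u x) 1)) := by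
      have e : u⁻¹ (u x) = x := by simp
      rw [LinearMap.sub_apply, map_neg, map_neg, hsingle, e, LinearMap.id_apply]
      abel
    rw [this]
    exact Submodule.mem_sup_right (LinearMap.mem_range_self _ _)
  have hle : Subgroup.closure ({s, u} : Set (Perm I)) ≤ G' := by
    rw [Subgroup.closure_le]
    intro g hg
    rcases hg with rfl | rfl
    · exact hsG
    · exact huG
  rcases isEmpty_or_nonempty I with hI | ⟨⟨x₀⟩⟩
  · have : f = 0 := funext fun x => (hI.false x).elim
    rw [this]
    exact W.zero_mem
  · have hdecomp : f = ∑ x, f x • (Pi.single x (1 : k) - Pi.single x₀ 1 : I → k) := by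
      have h1 : ∑ x, f x • (Pi.single x (1 : k) - Pi.single x₀ 1 : I → k) =
          ∑ x, f x • (Pi.single x (1 : k) : I → k) - (∑ x, f x) • Pi.single x₀ 1 := by
        simp only [smul_sub, Finset.sum_sub_distrib, Finset.sum_smul]
      rw [h1, hf, zero_smul, sub_zero]
      funext y
      simp [Finset.sum_apply, Pi.single_apply]
    rw [hdecomp]
    refine W.sum_mem fun x _ => W.smul_mem _ ?_
    obtain ⟨g, hg, hgx⟩ := htrans x x₀
    have := hle hg x
    rwa [hgx] at this

variable (k)

/-- The sum functional. -/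
def sumL : (I → k) →ₗ[k] k := ∑ x, LinearMap.proj x

variable {k}

theorem sumL_apply (f : I → k) : sumL k f = ∑ x, f x := by
  simp [sumL, LinearMap.sum_apply]

variable (k)

/-- The map `(a, b) ↦ cycSum (b - a ∘ t)` on `V × V`. -/
def parabMap (t : Perm I) (m : ℕ) : (I → k) × (I → k) →ₗ[k] (I → k) :=
  cycSum k t m ∘ₗ (LinearMap.snd k _ _ - pOp k t ∘ₗ LinearMap.fst k _ _)

/-- The space receiving the parabolic cocycles: pairs `(a, b)` with `a ∘ s = -a`,
`b + b ∘ u + b ∘ u² = 0` and `∑ i < m, (b - a ∘ t) (t ^ i x) = 0` for all `x`. -/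
def parabZ (s u t : Perm I) (m : ℕ) : Submodule k ((I → k) × (I → k)) :=
  (antiSub k s).prod (normSub3 k u) ⊓ LinearMap.ker (parabMap k t m)

variable {k}

theorem parabMap_apply (t : Perm I) (m : ℕ) (p : (I → k) × (I → k)) :
    parabMap k t m p = cycSum k t m (p.2 - pOp k t p.1) := rfl

theorem mem_parabZ {s u t : Perm I} {m : ℕ} {p : (I → k) × (I → k)} :
    p ∈ parabZ k s u t m ↔ (∀ x, p.1 (s x) = -p.1 x) ∧
      (∀ x, p.2 x + p.2 (u x) + p.2 (u (u x)) = 0) ∧
      ∀ x, ∑ i ∈ range m, (p.2 ((t ^ i) x) - p.1 (t ((t ^ i) x))) = 0 := by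
  rw [parabZ, Submodule.mem_inf, Submodule.mem_prod, LinearMap.mem_ker, parabMap_apply,
    mem_antiSub, mem_normSub3, and_assoc]
  refine and_congr Iff.rfl (and_congr Iff.rfl ?_)
  rw [funext_iff]
  rfl

variable (k)

/-- **Dimension of `parabZ`**. -/
theorem finrank_parabZ [CharZero k] [Nonempty I] {s u t : Perm I} {m : ℕ} (hs : s ^ 2 = 1)
    (hu : u ^ 3 = 1) (htm : t ^ m = 1) (hm : m ≠ 0)
    (htrans : ∀ i j : I, ∃ g ∈ Subgroup.closure ({s, u} : Set (Perm I)), g i = j) :
    finrank k ↥(parabZ k s u t m) + orb s + orb u + orb t = 2 * Fintype.card I + 1 := by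
  have h2 : (2 : k) ≠ 0 := two_ne_zero
  have h3 : (3 : k) ≠ 0 := three_ne_zero
  have hmk : (m : k) ≠ 0 := Nat.cast_ne_zero.mpr hm
  -- the map `Φ` on `antiSub × normSub3` with values in the `t`-invariants
  set D := ↥(antiSub k s) × ↥(normSub3 k u) with hD
  let incl : D →ₗ[k] (I → k) × (I → k) :=
    LinearMap.prodMap (antiSub k s).subtype (normSub3 k u).subtype
  let Φ : D →ₗ[k] ↥(invSub k t) :=
    LinearMap.codRestrict (invSub k t) (parabMap k t m ∘ₗ incl)
      (fun p => cycSum_mem_invSub htm _)
  let ℓ : ↥(invSub k t) →ₗ[k] k := sumL k ∘ₗ (invSub k t).subtype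
  -- `ℓ` is surjective
  have hℓ : LinearMap.range ℓ = ⊤ := by
    rw [LinearMap.range_eq_top]
    intro c
    have hone : (fun _ : I => (1 : k)) ∈ invSub k t := fun _ => rfl
    have hcard : (Fintype.card I : k) ≠ 0 := Nat.cast_ne_zero.mpr Fintype.card_ne_zero
    refine ⟨(c / (Fintype.card I : k)) • ⟨_, hone⟩, ?_⟩
    simp only [ℓ, LinearMap.comp_apply, map_smul, Submodule.subtype_apply, sumL_apply,
      Finset.sum_const, Finset.card_univ, nsmul_eq_mul, mul_one, smul_eq_mul]
    field_simp
  -- the range of `Φ` is the kernel of `ℓ`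
  have hrange : LinearMap.range Φ = LinearMap.ker ℓ := by
    apply le_antisymm
    · rintro _ ⟨⟨a, b⟩, rfl⟩
      rw [LinearMap.mem_ker]
      show sumL k (cycSum k t m ((b : I → k) - pOp k t (a : I → k))) = 0
      rw [sumL_apply, sum_cycSum]
      have ha0 := sum_eq_zero_of_mem_antiSub h2 a.2
      have hb0 := sum_eq_zero_of_mem_normSub3 h3 b.2
      have hat : ∑ x, pOp k t (a : I → k) x = ∑ x, (a : I → k) x := Equiv.sum_comp t _
      simp only [Pi.sub_apply, Finset.sum_sub_distrib, hat, ha0, hb0, sub_zero, mul_zero]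
    · intro h hh
      rw [LinearMap.mem_ker] at hh
      have hsum : ∑ x, ((m : k)⁻¹ • (h : I → k)) x = 0 := by
        have : sumL k (h : I → k) = 0 := hh
        rw [sumL_apply] at this
        simp only [Pi.smul_apply, smul_eq_mul, ← Finset.mul_sum, this, mul_zero]
      obtain ⟨a', b', hab⟩ := exists_eq_sub_add_sub_of_sum_eq_zero htrans hsum
      refine ⟨(⟨-(pOp k s a' - a'), Submodule.neg_mem _ (sub_pOp_mem_antiSub hs a')⟩,
        ⟨b' - pOp k u b', sub_pOp_mem_normSub3 hu b'⟩), ?_⟩
      apply Subtype.ext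
      show cycSum k t m ((b' - pOp k u b') - pOp k t (-(pOp k s a' - a'))) = (h : I → k)
      rw [map_sub, cycSum_pOp htm, ← map_sub, sub_neg_eq_add, add_comm, ← hab, map_smul,
        cycSum_of_mem_invSub m h.2, smul_smul, inv_mul_cancel₀ hmk, one_smul]
  -- the kernel of `Φ` is `parabZ`
  let e : ↥(parabZ k s u t m) ≃ₗ[k] ↥(LinearMap.ker Φ) :=
    { toFun := fun p => ⟨(⟨p.1.1, p.2.1.1⟩, ⟨p.1.2, p.2.1.2⟩), by
        rw [LinearMap.mem_ker]
        apply Subtype.ext
        exact p.2.2⟩
      invFun := fun q => ⟨((q.1.1 : I → k), (q.1.2 : I → k)), by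
        refine ⟨⟨q.1.1.2, q.1.2.2⟩, ?_⟩
        have := q.2
        rw [LinearMap.mem_ker] at this
        exact congrArg Subtype.val this⟩
      map_add' := fun _ _ => rfl
      map_smul' := fun _ _ => rfl
      left_inv := fun _ => rfl
      right_inv := fun _ => rfl }
  have hrn1 := LinearMap.finrank_range_add_finrank_ker Φ
  have hrn2 := LinearMap.finrank_range_add_finrank_ker ℓ
  rw [hℓ, finrank_top, Module.finrank_self, finrank_invSub] at hrn2
  rw [hrange, ← e.finrank_eq] at hrn1
  have hDf : finrank k D = finrank k ↥(antiSub k s) + finrank k ↥(normSub3 k u) :=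
    Module.finrank_prod
  have hA := finrank_antiSub k hs h2
  have hB := finrank_normSub3 k hu h3
  omega

end

end Fermat.Agent.S21
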