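import Mathlib

set_option autoImplicit false

/-!
# S21-G (G1): the cocycle on `G ⧸ Γ` attached to a homomorphism `Γ → ℂ` (explicit Shapiro lemma)

For a group `G`, a subgroup `Γ` and an additive character `φ : Γ → ℂ` we put
`shapiro Γ φ g x = φ ((out x)⁻¹ * g * out (g⁻¹ • x))`.  It satisfies the cocycle identity
`shapiro (g * h) x = shapiro g x + shapiro h (g⁻¹ • x)`, recovers `φ` at the base coset, and `φ`
vanishes as soon as the cocycle is a coboundary on a generating set.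
-/

namespace Fermat.Agent.S21

noncomputable section

variable {G : Type*} [Group G] (Γ : Subgroup G)

theorem shapiro_mem (g : G) (x : G ⧸ Γ) :
    (Quotient.out x)⁻¹ * g * Quotient.out (g⁻¹ • x) ∈ Γ := by
  rw [mul_assoc, ← QuotientGroup.eq]
  have h1 : ((Quotient.out x : G) : G ⧸ Γ) = x := Quotient.out_eq' x
  have h2 : ((g * Quotient.out (g⁻¹ • x) : G) : G ⧸ Γ) = x := by
    have : ((Quotient.out (g⁻¹ • x) : G) : G ⧸ Γ) = g⁻¹ • x := Quotient.out_eq' _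
    calc ((g * Quotient.out (g⁻¹ • x) : G) : G ⧸ Γ)
        = g • ((Quotient.out (g⁻¹ • x) : G) : G ⧸ Γ) := rfl
      _ = x := by rw [this, smul_inv_smul]
  rw [h1, h2]

/-- `shapiro Γ φ g x = φ (r x ⁻¹ * g * r (g⁻¹ • x))` with `r = Quotient.out` -/
def shapiro (φ : Additive Γ →+ ℂ) (g : G) (x : G ⧸ Γ) : ℂ :=
  φ (Additive.ofMul ⟨_, shapiro_mem Γ g x⟩)

/-- Unfolding with the second representative named. -/
theorem shapiro_eq_of_eq (φ : Additive Γ →+ ℂ) (g : G) (x y : G ⧸ Γ) (hy : g⁻¹ • x = y)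
    (hmem : (Quotient.out x)⁻¹ * g * Quotient.out y ∈ Γ) :
    shapiro Γ φ g x = φ (Additive.ofMul ⟨_, hmem⟩) := by
  subst hy
  rfl

theorem shapiro_mul (φ : Additive Γ →+ ℂ) (g h : G) (x : G ⧸ Γ) :
    shapiro Γ φ (g * h) x = shapiro Γ φ g x + shapiro Γ φ h (g⁻¹ • x) := by
  have hy : (g * h)⁻¹ • x = h⁻¹ • g⁻¹ • x := by rw [mul_inv_rev, mul_smul]
  have hmem : (Quotient.out x)⁻¹ * (g * h) * Quotient.out (h⁻¹ • g⁻¹ • x) ∈ Γ := by
    have := shapiro_mem Γ (g * h) x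
    rwa [hy] at this
  rw [shapiro_eq_of_eq Γ φ (g * h) x _ hy hmem]
  unfold shapiro
  rw [← map_add, ← ofMul_mul]
  congr 2
  apply Subtype.ext
  simp only [Subgroup.coe_mul]
  group

theorem shapiro_add (φ ψ : Additive Γ →+ ℂ) (g : G) (x : G ⧸ Γ) :
    shapiro Γ (φ + ψ) g x = shapiro Γ φ g x + shapiro Γ ψ g x := rfl

theorem shapiro_smul (c : ℂ) (φ : Additive Γ →+ ℂ) (g : G) (x : G ⧸ Γ) :
    shapiro Γ (c • φ) g x = c * shapiro Γ φ g x := rfl

theorem shapiro_one (φ : Additive Γ →+ ℂ) (x : G ⧸ Γ) : shapiro Γ φ 1 x = 0 := by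
  have h := shapiro_mul Γ φ 1 1 x
  rw [mul_one, inv_one, one_smul] at h
  exact left_eq_add.mp h

theorem shapiro_inv (φ : Additive Γ →+ ℂ) (g : G) (x : G ⧸ Γ) :
    shapiro Γ φ g⁻¹ x = -shapiro Γ φ g (g • x) := by
  have h := shapiro_mul Γ φ g g⁻¹ (g • x)
  rw [mul_inv_cancel, shapiro_one, inv_smul_smul] at h
  exact eq_neg_of_add_eq_zero_right h.symm

/-- evaluation at the base coset recovers `φ` -/
theorem shapiro_base (φ : Additive Γ →+ ℂ) (γ : Γ) :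
    shapiro Γ φ (γ : G) (QuotientGroup.mk 1) = φ (Additive.ofMul γ) := by
  have hy : (γ : G)⁻¹ • (QuotientGroup.mk 1 : G ⧸ Γ) = QuotientGroup.mk 1 := by
    show ((((γ : G)⁻¹ * 1 : G)) : G ⧸ Γ) = _
    rw [mul_one, QuotientGroup.eq, inv_inv, mul_one]
    exact γ.2
  have hr : Quotient.out (QuotientGroup.mk 1 : G ⧸ Γ) ∈ Γ := by
    have h1 : ((Quotient.out (QuotientGroup.mk 1 : G ⧸ Γ) : G) : G ⧸ Γ) = QuotientGroup.mk 1 :=
      Quotient.out_eq' _
    rw [QuotientGroup.eq, mul_one] at h1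
    exact (Subgroup.inv_mem_iff Γ).mp h1
  have hmem : (Quotient.out (QuotientGroup.mk 1 : G ⧸ Γ))⁻¹ * (γ : G) *
      Quotient.out (QuotientGroup.mk 1 : G ⧸ Γ) ∈ Γ :=
    Γ.mul_mem (Γ.mul_mem (Γ.inv_mem hr) γ.2) hr
  rw [shapiro_eq_of_eq Γ φ (γ : G) _ _ hy hmem]
  have : (⟨_, hmem⟩ : Γ) = (⟨_, hr⟩ : Γ)⁻¹ * γ * ⟨_, hr⟩ := by
    apply Subtype.ext
    simp
  rw [this, ofMul_mul, ofMul_mul, ofMul_inv, map_add, map_add, map_neg]
  ring

/-- if the cocycle is the coboundary of `v` on a generating set, then `φ = 0` -/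
theorem eq_zero_of_shapiro_coboundary (φ : Additive Γ →+ ℂ) (S : Set G)
    (hS : Subgroup.closure S = ⊤) (v : G ⧸ Γ → ℂ)
    (h : ∀ g ∈ S, ∀ x, shapiro Γ φ g x = v (g⁻¹ • x) - v x) : φ = 0 := by
  let H : Subgroup G :=
    { carrier := {g | ∀ x, shapiro Γ φ g x = v (g⁻¹ • x) - v x}
      one_mem' := fun x => by simp [shapiro_one]
      mul_mem' := by
        intro a b ha hb x
        rw [shapiro_mul, ha x, hb (a⁻¹ • x), mul_inv_rev, mul_smul]
        ring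
      inv_mem' := by
        intro a ha x
        rw [shapiro_inv, ha (a • x), inv_smul_smul, inv_inv]
        ring }
  have hH : H = ⊤ := by
    rw [eq_top_iff, ← hS, Subgroup.closure_le]
    exact fun g hg => h g hg
  have hall : ∀ g : G, ∀ x, shapiro Γ φ g x = v (g⁻¹ • x) - v x := by
    intro g
    have : g ∈ H := by rw [hH]; exact Subgroup.mem_top g
    exact this
  refine AddMonoidHom.ext fun γ' => ?_
  obtain ⟨γ, rfl⟩ : ∃ γ : Γ, Additive.ofMul γ = γ' := ⟨Additive.toMul γ', rfl⟩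
  rw [← shapiro_base Γ φ γ, hall]
  have hy : (γ : G)⁻¹ • (QuotientGroup.mk 1 : G ⧸ Γ) = QuotientGroup.mk 1 := by
    show ((((γ : G)⁻¹ * 1 : G)) : G ⧸ Γ) = _
    rw [mul_one, QuotientGroup.eq, inv_inv, mul_one]
    exact γ.2
  rw [hy, sub_self]
  rfl

/-- sum of the cocycle of `t` along a `t`-orbit -/
theorem shapiro_pow_sum (φ : Additive Γ →+ ℂ) (t : G) (x : G ⧸ Γ) (n : ℕ) :
    ∑ j ∈ Finset.range n, shapiro Γ φ t ((t ^ j)⁻¹ • x) = shapiro Γ φ (t ^ n) x := by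
  induction n with
  | zero => simp [shapiro_one]
  | succ n ih => rw [Finset.sum_range_succ, ih, pow_succ, shapiro_mul]

/-- if `t ^ n` fixes `x` then the cocycle of `t ^ n` at `x` is `φ` of a conjugate of `t ^ n` -/
theorem shapiro_conj_pow (φ : Additive Γ →+ ℂ) (t : G) (x : G ⧸ Γ) (n : ℕ)
    (hn : (t ^ n)⁻¹ • x = x)
    (hmem : (Quotient.out x)⁻¹ * t ^ n * Quotient.out x ∈ Γ) :
    shapiro Γ φ (t ^ n) x = φ (Additive.ofMul ⟨_, hmem⟩) :=
  shapiro_eq_of_eq Γ φ (t ^ n) x x hn hmem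

theorem shapiro_conj_mem (g : G) (x : G ⧸ Γ) (hg : g⁻¹ • x = x) :
    (Quotient.out x)⁻¹ * g * Quotient.out x ∈ Γ := by
  have := shapiro_mem Γ g x
  rwa [hg] at this

/-- a central element of `Γ` has constant cocycle `φ z` -/
theorem shapiro_central (φ : Additive Γ →+ ℂ) (z : G) (hz : z ∈ Subgroup.center G) (hzΓ : z ∈ Γ)
    (x : G ⧸ Γ) : shapiro Γ φ z x = φ (Additive.ofMul ⟨z, hzΓ⟩) := by
  have hzx : z⁻¹ • x = x := by
    induction x using QuotientGroup.induction_on with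
    | H g =>
      show (((z⁻¹ * g : G)) : G ⧸ Γ) = _
      rw [QuotientGroup.eq]
      have hc : z⁻¹ * g = g * z⁻¹ :=
        ((Subgroup.mem_center_iff.mp (Subgroup.inv_mem _ hz)) g).symm
      rw [hc, mul_inv_rev, inv_inv, mul_assoc, inv_mul_cancel, mul_one]
      exact hzΓ
  have hmem := shapiro_conj_mem Γ z x hzx
  rw [shapiro_eq_of_eq Γ φ z x x hzx hmem]
  congr 2
  apply Subtype.ext
  show (Quotient.out x)⁻¹ * z * Quotient.out x = z
  rw [mul_assoc, ← (Subgroup.mem_center_iff.mp hz) (Quotient.out x), ← mul_assoc,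
    inv_mul_cancel, one_mul]

end

end Fermat.Agent.S21
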